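import Fermat.Agent.Corollaries.Mertens.FieldIn

/-!
# Mertens' theorems over a number field

`K` a number field, `κ` the residue of its zeta function at `1`, `γ` the Euler-Mascheroni constant;
`v` runs over the non-zero prime ideals.

* `mertens_product` : `∏_{N v ≤ x} (1 - 1 / N v) · log x → e ^ (-γ) / κ`;
* `mertens_second` : `∑_{N v ≤ x} 1 / N v = log log x + B_K + o(1 / log x)` with
  `B_K = γ + log κ + ∑ (log (1 - 1 / N v) + 1 / N v)`;
* `mertens_first` : `∑_{N v ≤ x} log N v / N v = log x + C_K + o(1)`;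
* `mertens_lambda` : `∑_{N v ^ k ≤ x} log N v / N v ^ k = log x - γ_K + o(1)`, with the
  Euler-Kronecker constant `γ_K = lim (ζ_K'/ζ_K(s) + 1 / (s - 1))`, `s → 1`;
* `mertens_second_class`, `mertens_product_class` : the prime ideals of a given ideal class, with
  the factor `1 / h`.
-/

set_option autoImplicit false
set_option linter.unusedSectionVars false

noncomputable section

open NumberField NumberField.InfinitePlace nonZeroDivisors Filter Topology IsDedekindDomain

open scoped Classical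

namespace Fermat.Agent.Cor.Mert

open Fermat.Agent.ClassL Fermat.Agent.Classic.Zeta

universe u

variable (K : Type u) [Field K] [NumberField K]

/-! ### Places -/

/-- the prime elements of the monoid of ideals are the places -/
def prEquiv : HeightOneSpectrum (𝓞 K) ≃ Pr K where
  toFun v := ⟨⟨v.asIdeal, mem_nonZeroDivisors_of_ne_zero v.ne_bot⟩, v.prime⟩
  invFun P := ⟨((P.1 : (Ideal (𝓞 K))⁰) : Ideal (𝓞 K)), Ideal.isPrime_of_prime P.2, P.2.ne_zero⟩
  left_inv _ := rfl
  right_inv _ := rfl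

theorem nP_prEquiv (v : HeightOneSpectrum (𝓞 K)) : nP (prEquiv K v) = Ideal.absNorm v.asIdeal := rfl

theorem finite_placesLe (x : ℝ) :
    {v : HeightOneSpectrum (𝓞 K) | (Ideal.absNorm v.asIdeal : ℝ) ≤ x}.Finite := by
  refine ((finite_nP K ⌊x⌋₊).preimage (prEquiv K).injective.injOn).subset fun v hv => ?_
  change nP (prEquiv K v) ≤ ⌊x⌋₊
  exact Nat.le_floor hv

/-- the non-zero prime ideals of norm at most `x` -/
def placesLe (x : ℝ) : Finset (HeightOneSpectrum (𝓞 K)) := (finite_placesLe K x).toFinset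

variable {K}

theorem mem_placesLe {x : ℝ} {v : HeightOneSpectrum (𝓞 K)} :
    v ∈ placesLe K x ↔ (Ideal.absNorm v.asIdeal : ℝ) ≤ x := by
  rw [placesLe, Set.Finite.mem_toFinset]
  rfl

/-- the ideal class of a place -/
def clsOf (v : HeightOneSpectrum (𝓞 K)) : ClassGroup (𝓞 K) :=
  ClassGroup.mk0 ⟨v.asIdeal, mem_nonZeroDivisors_of_ne_zero v.ne_bot⟩

variable {D : ℝ} (h : IsCount (nP (K := K)) D)

theorem mem_placesLe_iff {x : ℝ} {v : HeightOneSpectrum (𝓞 K)} :
    v ∈ placesLe K x ↔ prEquiv K v ∈ h.F ⌊x⌋₊ := by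
  rw [mem_placesLe, h.mem_F, nP_prEquiv, Nat.le_floor_iff']
  have := two_le_nP (prEquiv K v)
  rw [nP_prEquiv] at this
  omega

theorem sum_placesLe (f : Pr K → ℝ) (x : ℝ) :
    ∑ v ∈ placesLe K x, f (prEquiv K v) = ∑ P ∈ h.F ⌊x⌋₊, f P :=
  Finset.sum_equiv (prEquiv K) (fun _ => mem_placesLe_iff h) fun _ _ => rfl

theorem prod_placesLe (T : Pr K → Prop) (f : Pr K → ℝ) (x : ℝ) :
    ∏ v ∈ placesLe K x with T (prEquiv K v), f (prEquiv K v) =
      ∏ P ∈ h.F ⌊x⌋₊ with T P, f P := by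
  refine Finset.prod_equiv (prEquiv K) (fun v => ?_) fun _ _ => rfl
  rw [Finset.mem_filter, Finset.mem_filter, mem_placesLe_iff h]

theorem prod_placesLe' (f : Pr K → ℝ) (x : ℝ) :
    ∏ v ∈ placesLe K x, f (prEquiv K v) = ∏ P ∈ h.F ⌊x⌋₊, f P :=
  Finset.prod_equiv (prEquiv K) (fun _ => mem_placesLe_iff h) fun _ _ => rfl

variable (K)

/-! ### The theorems over `K` -/

/-- **Mertens' third theorem over a number field**:
`∏_{N v ≤ x} (1 - 1 / N v) ~ e ^ (-γ) / (κ log x)`, `κ` the residue of `ζ_K` at `1`. -/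
theorem mertens_product :
    Tendsto (fun x : ℝ => (∏ v ∈ placesLe K x, (1 - (Ideal.absNorm v.asIdeal : ℝ)⁻¹)) *
      Real.log x) atTop
      (𝓝 (Real.exp (-Real.eulerMascheroniConstant) / dedekindZeta_residue K)) := by
  obtain ⟨D, h⟩ := exists_isCount K
  have h1 := h.tendsto_lp_of_tsum (c := fun _ _ => 1) (fun _ _ => zero_le_one) (fun _ _ => le_rfl)
    tendsto_vM_div tendsto_tsum_log_zetaK
  have h2 := h.tendsto_prod (T := fun _ => True) (fun _ => (if_pos trivial).symm) h1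
  have h3 : Real.exp (-(1 * Real.eulerMascheroniConstant + Real.log (dedekindZeta_residue K))) =
      Real.exp (-Real.eulerMascheroniConstant) / dedekindZeta_residue K := by
    rw [one_mul, neg_add, Real.exp_add, Real.exp_neg (Real.log _),
      Real.exp_log (dedekindZeta_residue_pos K), div_eq_mul_inv]
  rw [h3] at h2
  refine h2.congr fun x => ?_
  rw [Real.rpow_one, Finset.filter_true_of_mem fun _ _ => trivial,
    ← prod_placesLe' h (fun P => 1 - (nP P : ℝ)⁻¹)]
  rfl

/-- the constant of Mertens' second theorem over `K` -/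
def mertensConst : ℝ := Real.eulerMascheroniConstant + Real.log (dedekindZeta_residue K) +
  ∑' v : HeightOneSpectrum (𝓞 K), (Real.log (1 - (Ideal.absNorm v.asIdeal : ℝ)⁻¹) +
    (Ideal.absNorm v.asIdeal : ℝ)⁻¹)

/-- **Mertens' second theorem over a number field**:
`∑_{N v ≤ x} 1 / N v = log log x + B_K + o(1 / log x)`, with
`B_K = γ + log κ + ∑ (log (1 - 1 / N v) + 1 / N v)`. -/
theorem mertens_second :
    Tendsto (fun x : ℝ => ((∑ v ∈ placesLe K x, (Ideal.absNorm v.asIdeal : ℝ)⁻¹) -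
      Real.log (Real.log x) - mertensConst K) * Real.log x) atTop (𝓝 0) := by
  obtain ⟨D, h⟩ := exists_isCount K
  have h1 := h.tendsto_rc_of_tsum (c := fun _ _ => 1) (fun _ _ => zero_le_one) (fun _ _ => le_rfl)
    tendsto_vM_div tendsto_tsum_log_zetaK
  have h2 : (1 * Real.eulerMascheroniConstant + Real.log (dedekindZeta_residue K) -
      IsCount.rm (nP (K := K)) (fun _ _ => 1)) = mertensConst K := by
    rw [mertensConst, IsCount.rm, one_mul, sub_eq_add_neg, ← tsum_neg, ← (prEquiv K).tsum_eq]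
    congr 2
    ext v
    rw [nP_prEquiv, rem]
    ring
  rw [h2] at h1
  refine h1.congr fun x => ?_
  rw [one_mul, IsCount.rc, ← sum_placesLe h (fun P => 1 / (nP P : ℝ))]
  simp only [nP_prEquiv, one_div]

/-- the series in the definition of `mertensConst` converges -/
theorem summable_mertensConst : Summable fun v : HeightOneSpectrum (𝓞 K) =>
    Real.log (1 - (Ideal.absNorm v.asIdeal : ℝ)⁻¹) + (Ideal.absNorm v.asIdeal : ℝ)⁻¹ := by
  obtain ⟨D, h⟩ := exists_isCount K
  have h1 := h.summable_rem (c := fun _ _ => 1) (fun _ _ => zero_le_one) (fun _ _ => le_rfl) le_rfl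
  simp only [add_zero, Real.rpow_neg_one, one_mul] at h1
  have h2 := ((prEquiv K).summable_iff.mpr h1).neg
  refine h2.congr fun v => ?_
  rw [Function.comp_apply, nP_prEquiv, rem]
  ring

/-- `∑_{N v ≤ x} 1 / N v - log log x → B_K`. -/
theorem tendsto_sum_inv_sub :
    Tendsto (fun x : ℝ => (∑ v ∈ placesLe K x, (Ideal.absNorm v.asIdeal : ℝ)⁻¹) -
      Real.log (Real.log x)) atTop (𝓝 (mertensConst K)) :=
  tendsto_of_mul_log (mertens_second K)

/-- the Euler-Kronecker constant of `K` -/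
def eulerKronecker : ℝ := (deriv (WK (K := K) fun _ => 1) 1 / WK (K := K) (fun _ => 1) 1).re

/-- **The logarithmic mean of `Λ_K`**: the sum of `log N(v) / N(v) ^ k` over the prime powers with
`N(v) ^ k ≤ x`, `k ≥ 1`, is `log x - γ_K + o(1)`. -/
theorem mertens_lambda :
    Tendsto (fun x : ℝ => (∑ n ∈ Finset.Icc 1 ⌊x⌋₊, (∑' q : {q : HeightOneSpectrum (𝓞 K) × ℕ //
      Ideal.absNorm q.1.asIdeal ^ (q.2 + 1) = n}, Real.log (Ideal.absNorm q.1.1.asIdeal)) / n) -
      Real.log x) atTop (𝓝 (-eulerKronecker K)) := by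
  have h1 := tendsto_vM_div (K := K)
  rw [Complex.neg_re] at h1
  refine h1.congr fun x => ?_
  rw [one_mul]
  congr 1
  refine Finset.sum_congr rfl fun n _ => ?_
  congr 1
  let e : {q : HeightOneSpectrum (𝓞 K) × ℕ // Ideal.absNorm q.1.asIdeal ^ (q.2 + 1) = n} ≃
      {p : Pr K × ℕ // nP p.1 ^ (p.2 + 1) = n} :=
    ((prEquiv K).prodCongr (Equiv.refl ℕ)).subtypeEquiv fun q => Iff.rfl
  rw [vM, ← e.tsum_eq]
  refine tsum_congr fun q => ?_
  rw [one_mul]
  rfl

/-- **Mertens' first theorem over a number field**: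
`∑_{N v ≤ x} log N v / N v = log x + C_K + o(1)`. -/
theorem mertens_first :
    ∃ C : ℝ, Tendsto (fun x : ℝ => (∑ v ∈ placesLe K x,
      Real.log (Ideal.absNorm v.asIdeal) / Ideal.absNorm v.asIdeal) - Real.log x) atTop (𝓝 C) := by
  obtain ⟨D, h⟩ := exists_isCount K
  have h1 := h.tendsto_lg (c := fun _ _ => 1) (fun _ _ => zero_le_one) (fun _ _ => le_rfl)
    tendsto_vM_div
  refine ⟨_, h1.congr fun x => ?_⟩
  rw [one_mul, IsCount.lg, ← sum_placesLe h (fun P => 1 * Real.log (nP P) / (nP P : ℝ))]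
  simp only [nP_prEquiv, one_mul]

/-! ### Ideal classes -/

variable {K}

/-- the weights of an ideal class -/
def clw (C : ClassGroup (𝓞 K)) (P : Pr K) (k : ℕ) : ℝ :=
  if ClassGroup.mk0 P.1 ^ (k + 1) = C then 1 else 0

theorem clw_nonneg (C : ClassGroup (𝓞 K)) (P : Pr K) (k : ℕ) : 0 ≤ clw C P k := by
  unfold clw
  split_ifs <;> norm_num

theorem clw_le_one (C : ClassGroup (𝓞 K)) (P : Pr K) (k : ℕ) : clw C P k ≤ 1 := by
  unfold clw
  split_ifs <;> norm_num

theorem clw_zero (C : ClassGroup (𝓞 K)) (P : Pr K) :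
    clw C P 0 = if ClassGroup.mk0 P.1 = C then 1 else 0 := by
  unfold clw
  rw [zero_add, pow_one]

theorem tendsto_vM_clw (C : ClassGroup (𝓞 K)) : Tendsto (fun x : ℝ =>
      (∑ n ∈ Finset.Icc 1 ⌊x⌋₊, vM (nP (K := K)) (clw C) n / n) -
      (Nat.card (ClassGroup (𝓞 K)) : ℝ)⁻¹ * Real.log x) atTop (𝓝 (GC C 1).re) := by
  refine (tendsto_LamC_div C).congr fun x => ?_
  congr 1
  refine Finset.sum_congr rfl fun n _ => ?_
  rw [← vM_class C n]
  rfl

/-- **Mertens' second theorem for the prime ideals of an ideal class**: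
`∑_{N v ≤ x, [v] = C} 1 / N v = (1 / h) log log x + B_C + o(1 / log x)`. -/
theorem mertens_second_class (C : ClassGroup (𝓞 K)) :
    ∃ B : ℝ, Tendsto (fun x : ℝ => ((∑ v ∈ placesLe K x with clsOf v = C,
      (Ideal.absNorm v.asIdeal : ℝ)⁻¹) -
      (Nat.card (ClassGroup (𝓞 K)) : ℝ)⁻¹ * Real.log (Real.log x) - B) * Real.log x)
      atTop (𝓝 0) := by
  obtain ⟨D, h⟩ := exists_isCount K
  obtain ⟨B, hB⟩ := h.exists_tendsto_rc (c := clw C) (clw_nonneg C) (clw_le_one C)
    (tendsto_vM_clw C)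
  refine ⟨B, hB.congr fun x => ?_⟩
  rw [IsCount.rc, ← sum_placesLe h (fun P => clw C P 0 / (nP P : ℝ)), Finset.sum_filter]
  congr 3
  refine Finset.sum_congr rfl fun v _ => ?_
  rw [clw_zero, nP_prEquiv]
  change (if clsOf v = C then (1 : ℝ) else 0) / _ = _
  split_ifs
  · rw [one_div]
  · rw [zero_div]

/-- **Mertens' product over the prime ideals of an ideal class**:
`∏_{N v ≤ x, [v] = C} (1 - 1 / N v) ~ c_C (log x) ^ (-1 / h)`, `c_C > 0`. -/
theorem mertens_product_class (C : ClassGroup (𝓞 K)) :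
    ∃ c : ℝ, 0 < c ∧ Tendsto (fun x : ℝ => (∏ v ∈ placesLe K x with clsOf v = C,
      (1 - (Ideal.absNorm v.asIdeal : ℝ)⁻¹)) *
      Real.log x ^ (Nat.card (ClassGroup (𝓞 K)) : ℝ)⁻¹) atTop (𝓝 c) := by
  obtain ⟨D, h⟩ := exists_isCount K
  obtain ⟨B, hB⟩ := h.exists_tendsto_rc (c := clw C) (clw_nonneg C) (clw_le_one C)
    (tendsto_vM_clw C)
  have h1 := h.tendsto_lp (clw_nonneg C) (clw_le_one C) (tendsto_of_mul_log hB)
  refine ⟨_, Real.exp_pos _, (h.tendsto_prod (T := fun P => ClassGroup.mk0 P.1 = C)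
    (clw_zero C) h1).congr fun x => ?_⟩
  rw [← prod_placesLe h (fun P => ClassGroup.mk0 P.1 = C)]
  rfl

/-- **Mertens' first theorem for the prime ideals of an ideal class.** -/
theorem mertens_first_class (C : ClassGroup (𝓞 K)) :
    ∃ c : ℝ, Tendsto (fun x : ℝ => (∑ v ∈ placesLe K x with clsOf v = C,
      Real.log (Ideal.absNorm v.asIdeal) / Ideal.absNorm v.asIdeal) -
      (Nat.card (ClassGroup (𝓞 K)) : ℝ)⁻¹ * Real.log x) atTop (𝓝 c) := by
  obtain ⟨D, h⟩ := exists_isCount K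
  have h1 := h.tendsto_lg (c := clw C) (clw_nonneg C) (clw_le_one C) (tendsto_vM_clw C)
  refine ⟨_, h1.congr fun x => ?_⟩
  rw [IsCount.lg, ← sum_placesLe h (fun P => clw C P 0 * Real.log (nP P) / (nP P : ℝ)),
    Finset.sum_filter]
  congr 1
  refine Finset.sum_congr rfl fun v _ => ?_
  rw [clw_zero, nP_prEquiv]
  change (if clsOf v = C then (1 : ℝ) else 0) * _ / _ = _
  split_ifs
  · rw [one_mul]
  · rw [zero_mul, zero_div]

end Fermat.Agent.Cor.Mert

end
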