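import Fermat.Agent.Corollaries.Mertens.Count

/-!
# The sum over the higher prime powers
-/

set_option autoImplicit false

open Filter Topology

noncomputable section

namespace Fermat.Agent.Cor

variable {ι : Type*} {N : ι → ℕ}

namespace IsCount

variable {D : ℝ} (h : IsCount N D)

include h in
/-- the sum over the higher prime powers, all weights `1` -/
theorem tsum_hw_one : ∑' p, hw N (fun _ _ => 1) p =
    ∑' i, Real.log (N i) / (N i * (N i - 1)) := by
  have hs := h.summable_hw (c := fun _ _ => 1) (fun _ _ => zero_le_one) (fun _ _ => le_rfl)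
  rw [hs.tsum_prod]
  refine tsum_congr fun i => ?_
  have hN := h.pos i
  have hN1 := h.one_lt i
  have hN1' : (N i : ℝ) - 1 ≠ 0 := by linarith
  set L := Real.log (N i) with hL
  have h1 : HasSum (fun k : ℕ => L * (N i : ℝ)⁻¹ * ((N i : ℝ)⁻¹) ^ k)
      (L * (N i : ℝ)⁻¹ * (1 - (N i : ℝ)⁻¹)⁻¹) :=
    (hasSum_geometric_of_lt_one (by positivity) (inv_lt_one_of_one_lt₀ hN1)).mul_left _
  have h2 := h1.sub (hasSum_ite_eq 0 (L * (N i : ℝ)⁻¹))
  have h3 : (fun k : ℕ => hw N (fun _ _ => 1) (i, k)) =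
      fun k : ℕ => L * (N i : ℝ)⁻¹ * ((N i : ℝ)⁻¹) ^ k - if k = 0 then L * (N i : ℝ)⁻¹ else 0 := by
    ext k
    unfold hw
    by_cases hk : k = 0
    · subst hk
      simp
    · simp only [hk, if_false, one_mul, sub_zero]
      rw [← hL, pow_succ, div_eq_mul_inv, mul_inv, inv_pow]
      ring
  rw [h3, h2.tsum_eq]
  field_simp
  ring

end IsCount

end Fermat.Agent.Cor

end
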