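import Fermat.Agent.Corollaries.Mertens.Count

/-!
# Mertens' product for a family of "primes"

`∑_{N i ≤ x} -log (1 - 1 / N i)`: the asymptotic expansion, with the constant in terms of the
behaviour of the Euler product at its pole.
-/

set_option autoImplicit false

open Filter Topology

noncomputable section

namespace Fermat.Agent.Cor

open Mert

/-- `-log (1 - z) - z` -/
def Mert.rem (z : ℝ) : ℝ := -Real.log (1 - z) - z

theorem Mert.rem_nonneg {z : ℝ} (hz : z < 1) : 0 ≤ Mert.rem z := by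
  have := Real.log_le_sub_one_of_pos (show 0 < 1 - z by linarith)
  unfold Mert.rem
  linarith

theorem Mert.rem_le {z : ℝ} (hz0 : 0 ≤ z) (hz : z ≤ 1 / 2) : Mert.rem z ≤ 2 * z ^ 2 := by
  have h1 := Real.abs_log_sub_add_sum_range_le (x := z) (by rw [abs_of_nonneg hz0]; linarith) 1
  rw [abs_of_nonneg hz0] at h1
  simp only [Finset.sum_range_one, zero_add, pow_one, Nat.cast_zero, div_one] at h1
  have h2 : z ^ 2 / (1 - z) ≤ 2 * z ^ 2 := by
    rw [div_le_iff₀ (by linarith)]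
    nlinarith [sq_nonneg z]
  have h3 := neg_abs_le (z + Real.log (1 - z))
  have h4 : |z + Real.log (1 - z)| ≤ z ^ 2 / (1 - z) := by simpa using h1
  unfold Mert.rem
  linarith

theorem Mert.continuousAt_rem {z : ℝ} (hz : z < 1) : ContinuousAt Mert.rem z := by
  unfold Mert.rem
  have h1 : ContinuousAt (fun z : ℝ => Real.log (1 - z)) z :=
    (Real.continuousAt_log (by linarith)).comp (f := fun z : ℝ => 1 - z) (by fun_prop)
  exact h1.neg.sub continuousAt_id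

/-- an error term `o(1 / log x)` is `o(1)` -/
theorem Mert.tendsto_of_mul_log {f : ℝ → ℝ} {B : ℝ}
    (hB : Tendsto (fun x : ℝ => (f x - B) * Real.log x) atTop (𝓝 0)) :
    Tendsto f atTop (𝓝 B) := by
  have h1 : Tendsto (fun x : ℝ => (Real.log x)⁻¹) atTop (𝓝 0) :=
    tendsto_inv_atTop_zero.comp Real.tendsto_log_atTop
  have h2 := (hB.mul h1).add_const B
  rw [mul_zero, zero_add] at h2
  refine h2.congr' ?_
  filter_upwards [eventually_gt_atTop 1] with x hx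
  have := (Real.log_pos hx).ne'
  field_simp
  ring

variable {ι : Type*} {N : ι → ℕ}

namespace IsCount

variable {D : ℝ} (h : IsCount N D)

include h in
theorem rpow_le_half (i : ι) {δ : ℝ} (hδ : 0 ≤ δ) : (N i : ℝ) ^ (-(1 + δ)) ≤ 1 / 2 := by
  have h2 : (2 : ℝ) ≤ N i := by exact_mod_cast h.two_le i
  calc (N i : ℝ) ^ (-(1 + δ)) ≤ (N i : ℝ) ^ (-1 : ℝ) :=
        Real.rpow_le_rpow_of_exponent_le (by linarith) (by linarith)
    _ = (N i : ℝ)⁻¹ := Real.rpow_neg_one _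
    _ ≤ 1 / 2 := by
      rw [one_div]
      exact inv_anti₀ (by norm_num) h2

include h in
theorem rem_rpow_le (i : ι) {δ : ℝ} (hδ : 0 ≤ δ) :
    Mert.rem ((N i : ℝ) ^ (-(1 + δ))) ≤ 2 * (N i : ℝ) ^ (-2 : ℝ) := by
  have hN := h.pos i
  refine (Mert.rem_le (Real.rpow_nonneg hN.le _) (h.rpow_le_half i hδ)).trans ?_
  rw [← Real.rpow_natCast, ← Real.rpow_mul hN.le]
  have : (N i : ℝ) ^ (-(1 + δ) * (2 : ℕ)) ≤ (N i : ℝ) ^ (-2 : ℝ) := by
    refine Real.rpow_le_rpow_of_exponent_le (h.one_lt i).le ?_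
    push_cast
    linarith
  linarith

include h in
theorem rem_rpow_nonneg (i : ι) {δ : ℝ} (hδ : 0 ≤ δ) :
    0 ≤ Mert.rem ((N i : ℝ) ^ (-(1 + δ))) :=
  Mert.rem_nonneg (by linarith [h.rpow_le_half i hδ])

include h in
theorem summable_rem {c : ι → ℕ → ℝ} (hc0 : ∀ i k, 0 ≤ c i k) (hc1 : ∀ i k, c i k ≤ 1) {δ : ℝ}
    (hδ : 0 ≤ δ) : Summable fun i => c i 0 * Mert.rem ((N i : ℝ) ^ (-(1 + δ))) := by
  refine Summable.of_nonneg_of_le (fun i => mul_nonneg (hc0 i 0) (h.rem_rpow_nonneg i hδ))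
    (fun i => ?_) ((h.summable_rpow (σ := 2) (by norm_num)).mul_left 2)
  refine le_trans ?_ (h.rem_rpow_le i hδ)
  exact mul_le_of_le_one_left (h.rem_rpow_nonneg i hδ) (hc1 i 0)

theorem tendsto_F : Tendsto (fun x : ℕ => h.F x) atTop atTop := by
  refine tendsto_atTop_finset_of_monotone (fun x y hxy p hp => ?_) fun p => ?_
  · rw [mem_F] at hp ⊢
    exact hp.trans hxy
  · exact ⟨N p, h.mem_F.mpr le_rfl⟩

/-- `∑_{N i ≤ x} c i (-log (1 - 1 / N i))` -/
def lp (c : ι → ℕ → ℝ) (x : ℕ) : ℝ := ∑ i ∈ h.F x, c i 0 * -Real.log (1 - (N i : ℝ)⁻¹)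

/-- the constant of the difference of the two sums -/
def rm (N : ι → ℕ) (c : ι → ℕ → ℝ) : ℝ := ∑' i, c i 0 * Mert.rem ((N i : ℝ)⁻¹)

theorem tendsto_lp_sub_rc {c : ι → ℕ → ℝ} (hc0 : ∀ i k, 0 ≤ c i k) (hc1 : ∀ i k, c i k ≤ 1) :
    Tendsto (fun x : ℝ => h.lp c ⌊x⌋₊ - h.rc c ⌊x⌋₊) atTop (𝓝 (rm N c)) := by
  have h1 := h.summable_rem hc0 hc1 le_rfl
  simp only [add_zero, Real.rpow_neg_one] at h1
  refine ((h1.hasSum.comp h.tendsto_F).comp tendsto_nat_floor_atTop).congr fun x => ?_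
  simp only [Function.comp_apply]
  rw [lp, rc, ← Finset.sum_sub_distrib]
  refine Finset.sum_congr rfl fun i _ => ?_
  rw [Mert.rem, div_eq_mul_inv]
  ring

/-- the sum of the logarithms, with an unknown constant -/
theorem tendsto_lp {c : ι → ℕ → ℝ} (hc0 : ∀ i k, 0 ≤ c i k) (hc1 : ∀ i k, c i k ≤ 1) {A B : ℝ}
    (hB : Tendsto (fun x : ℝ => h.rc c ⌊x⌋₊ - A * Real.log (Real.log x)) atTop (𝓝 B)) :
    Tendsto (fun x : ℝ => h.lp c ⌊x⌋₊ - A * Real.log (Real.log x)) atTop (𝓝 (B + rm N c)) := by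
  refine (hB.add (h.tendsto_lp_sub_rc hc0 hc1)).congr fun x => ?_
  ring

theorem tsum_cf {c : ι → ℕ → ℝ} (hc0 : ∀ i k, 0 ≤ c i k) (hc1 : ∀ i k, c i k ≤ 1) {δ : ℝ}
    (hδ : 0 < δ) : ∑' n : ℕ, h.cf c n * (n : ℝ) ^ (-δ) =
      ∑' i, c i 0 * (N i : ℝ) ^ (-(1 + δ)) := by
  classical
  have hs : Summable fun i => c i 0 * (N i : ℝ) ^ (-(1 + δ)) := by
    refine Summable.of_nonneg_of_le (fun i => mul_nonneg (hc0 i 0) (by positivity)) (fun i => ?_)
      (h.summable_rpow (σ := 1 + δ) (by linarith))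
    exact mul_le_of_le_one_left (by positivity) (hc1 i 0)
  have h1 := hs.hasSum.tsum_fiberwise N
  rw [← h1.tsum_eq]
  refine tsum_congr fun n => ?_
  have hset : (N ⁻¹' {n} : Set ι) = (((h.F n).filter fun i => N i = n : Finset ι) : Set ι) := by
    ext i
    rw [Finset.coe_filter]
    simp only [Set.mem_preimage, Set.mem_singleton_iff, Set.mem_ofPred_eq, mem_F]
    exact ⟨fun hi => ⟨hi.le, hi⟩, fun hi => hi.2⟩
  rw [hset, Finset.tsum_subtype' _ (fun i => c i 0 * (N i : ℝ) ^ (-(1 + δ))), cf,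
    Finset.sum_div, Finset.sum_mul]
  refine Finset.sum_congr rfl fun i hi => ?_
  rw [← (Finset.mem_filter.mp hi).2, neg_add, Real.rpow_add (h.pos i), Real.rpow_neg_one]
  ring

/-- the Euler product near its pole -/
theorem tendsto_tsum_log {c : ι → ℕ → ℝ} (hc0 : ∀ i k, 0 ≤ c i k) (hc1 : ∀ i k, c i k ≤ 1)
    {A B : ℝ}
    (hB : Tendsto (fun x : ℝ => h.rc c ⌊x⌋₊ - A * Real.log (Real.log x)) atTop (𝓝 B)) :
    Tendsto (fun δ : ℝ => (∑' i, c i 0 * -Real.log (1 - (N i : ℝ) ^ (-(1 + δ)))) +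
      A * Real.log δ) (𝓝[>] 0) (𝓝 (B + rm N c - A * Real.eulerMascheroniConstant)) := by
  have h1 : Tendsto (fun x : ℝ => sumU (h.cf c) x - A * Real.log (Real.log x)) atTop (𝓝 B) := by
    simpa only [sumU_cf] using hB
  have h2 := tendsto_tsum_rpow (h.cf_nonneg hc0) h1
  have h3 : Tendsto (fun δ : ℝ => ∑' i, c i 0 * Mert.rem ((N i : ℝ) ^ (-(1 + δ)))) (𝓝[>] 0)
      (𝓝 (rm N c)) := by
    refine tendsto_tsum_of_dominated_convergence (bound := fun i => 2 * (N i : ℝ) ^ (-2 : ℝ))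
      ((h.summable_rpow (σ := 2) (by norm_num)).mul_left 2) (fun i => ?_) ?_
    · refine Tendsto.const_mul _ ?_
      have h4 : Tendsto (fun δ : ℝ => (N i : ℝ) ^ (-(1 + δ))) (𝓝[>] 0) (𝓝 (N i : ℝ)⁻¹) := by
        have h5 : Continuous fun δ : ℝ => (N i : ℝ) ^ (-(1 + δ)) :=
          Continuous.rpow continuous_const (by fun_prop) fun δ => Or.inl (h.pos i).ne'
        have h6 := (h5.tendsto 0).mono_left (nhdsWithin_le_nhds (s := Set.Ioi 0))
        simpa only [add_zero, Real.rpow_neg_one] using h6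
      have h5 : (N i : ℝ)⁻¹ < 1 := inv_lt_one_of_one_lt₀ (h.one_lt i)
      exact (Mert.continuousAt_rem h5).tendsto.comp h4
    · filter_upwards [self_mem_nhdsWithin] with δ hδ i
      have hδ : 0 < δ := hδ
      have h4 := h.rem_rpow_nonneg i hδ.le
      rw [Real.norm_of_nonneg (mul_nonneg (hc0 i 0) h4)]
      exact (mul_le_of_le_one_left h4 (hc1 i 0)).trans (h.rem_rpow_le i hδ.le)
  have h4 := h2.add h3
  rw [show B - A * Real.eulerMascheroniConstant + rm N c =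
    B + rm N c - A * Real.eulerMascheroniConstant by ring] at h4
  refine h4.congr' ?_
  filter_upwards [self_mem_nhdsWithin] with δ hδ
  have hδ : 0 < δ := hδ
  have hs : Summable fun i => c i 0 * (N i : ℝ) ^ (-(1 + δ)) := by
    refine Summable.of_nonneg_of_le (fun i => mul_nonneg (hc0 i 0) (by positivity)) (fun i => ?_)
      (h.summable_rpow (σ := 1 + δ) (by linarith))
    exact mul_le_of_le_one_left (by positivity) (hc1 i 0)
  rw [h.tsum_cf hc0 hc1 hδ, add_right_comm, ← hs.tsum_add (h.summable_rem hc0 hc1 hδ.le)]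
  congr 2
  ext i
  rw [Mert.rem]
  ring

/-- **Third theorem**: if the logarithm of the Euler product is `-A log δ + l + o(1)` at `1 + δ`,
then `∑_{N i ≤ x} -log (1 - 1 / N i) = A log log x + A γ + l + o(1)`. -/
theorem tendsto_lp_of_tsum {c : ι → ℕ → ℝ} (hc0 : ∀ i k, 0 ≤ c i k) (hc1 : ∀ i k, c i k ≤ 1)
    {A C l : ℝ}
    (hA : Tendsto (fun x : ℝ => (∑ n ∈ Finset.Icc 1 ⌊x⌋₊, vM N c n / n) - A * Real.log x) atTop
      (𝓝 C))
    (hl : Tendsto (fun δ : ℝ => (∑' i, c i 0 * -Real.log (1 - (N i : ℝ) ^ (-(1 + δ)))) +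
      A * Real.log δ) (𝓝[>] 0) (𝓝 l)) :
    Tendsto (fun x : ℝ => h.lp c ⌊x⌋₊ - A * Real.log (Real.log x)) atTop
      (𝓝 (A * Real.eulerMascheroniConstant + l)) := by
  obtain ⟨B, hB⟩ := h.exists_tendsto_rc hc0 hc1 hA
  have hB' := Mert.tendsto_of_mul_log hB
  have h1 := tendsto_nhds_unique (h.tendsto_tsum_log hc0 hc1 hB') hl
  have h2 := h.tendsto_lp hc0 hc1 hB'
  rwa [show B + rm N c = A * Real.eulerMascheroniConstant + l by linarith] at h2

/-- the second theorem, with the constant: if the logarithm of the Euler product is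
`-A log δ + l + o(1)` at `1 + δ`, then
`∑_{N i ≤ x} c i / N i = A log log x + B + o(1 / log x)` with
`B = A γ + l - ∑ c i (-log (1 - 1 / N i) - 1 / N i)`. -/
theorem tendsto_rc_of_tsum {c : ι → ℕ → ℝ} (hc0 : ∀ i k, 0 ≤ c i k) (hc1 : ∀ i k, c i k ≤ 1)
    {A C l : ℝ}
    (hA : Tendsto (fun x : ℝ => (∑ n ∈ Finset.Icc 1 ⌊x⌋₊, vM N c n / n) - A * Real.log x) atTop
      (𝓝 C))
    (hl : Tendsto (fun δ : ℝ => (∑' i, c i 0 * -Real.log (1 - (N i : ℝ) ^ (-(1 + δ)))) +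
      A * Real.log δ) (𝓝[>] 0) (𝓝 l)) :
    Tendsto (fun x : ℝ => (h.rc c ⌊x⌋₊ - A * Real.log (Real.log x) -
      (A * Real.eulerMascheroniConstant + l - rm N c)) * Real.log x) atTop (𝓝 0) := by
  obtain ⟨B, hB⟩ := h.exists_tendsto_rc hc0 hc1 hA
  have h1 := tendsto_nhds_unique (h.tendsto_tsum_log hc0 hc1 (Mert.tendsto_of_mul_log hB)) hl
  rwa [show A * Real.eulerMascheroniConstant + l - rm N c = B by linarith]

/-- the product, for weights `0` and `1` -/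
theorem exp_neg_lp {c : ι → ℕ → ℝ} {T : ι → Prop} [DecidablePred T]
    (hT : ∀ i, c i 0 = if T i then 1 else 0) (x : ℕ) :
    Real.exp (-h.lp c x) = ∏ i ∈ h.F x with T i, (1 - (N i : ℝ)⁻¹) := by
  rw [lp, ← Finset.sum_neg_distrib, Real.exp_sum, Finset.prod_filter]
  refine Finset.prod_congr rfl fun i _ => ?_
  rw [hT]
  split_ifs
  · have : (N i : ℝ)⁻¹ < 1 := inv_lt_one_of_one_lt₀ (h.one_lt i)
    rw [one_mul, neg_neg, Real.exp_log (by linarith)]
  · rw [zero_mul, neg_zero, Real.exp_zero]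

/-- **Mertens' product.** -/
theorem tendsto_prod {c : ι → ℕ → ℝ} {T : ι → Prop} [DecidablePred T]
    (hT : ∀ i, c i 0 = if T i then 1 else 0) {A L : ℝ}
    (hL : Tendsto (fun x : ℝ => h.lp c ⌊x⌋₊ - A * Real.log (Real.log x)) atTop (𝓝 L)) :
    Tendsto (fun x : ℝ => (∏ i ∈ h.F ⌊x⌋₊ with T i, (1 - (N i : ℝ)⁻¹)) * Real.log x ^ A) atTop
      (𝓝 (Real.exp (-L))) := by
  refine ((Real.continuous_exp.tendsto _).comp hL.neg).congr' ?_
  filter_upwards [eventually_gt_atTop 1] with x hx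
  rw [Function.comp_apply, ← h.exp_neg_lp hT, Real.rpow_def_of_pos (Real.log_pos hx),
    ← Real.exp_add]
  congr 1
  ring

end IsCount

end Fermat.Agent.Cor

end
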