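import Fermat.Agent.Corollaries.Mertens.Series
import Fermat.Agent.Corollaries.Mertens.Product
import Fermat.Agent.Corollaries.Mertens.Higher
import Fermat.Agent.Corollaries.ZetaK.PNTAP

/-!
# Mertens' theorems for the prime numbers

`γ` the Euler-Mascheroni constant.

* `sum_vonMangoldt_div` : `∑_{n ≤ x} Λ(n) / n = log x - γ + o(1)`;
* `sum_log_div` : `∑_{p ≤ x} log p / p = log x - γ - ∑ log p / (p (p - 1)) + o(1)`;
* `sum_inv` : `∑_{p ≤ x} 1 / p = log log x + M + o(1 / log x)`,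
  `M = γ + ∑ (log (1 - 1 / p) + 1 / p)` (the Meissel-Mertens constant);
* `prod_one_sub_inv` : `∏_{p ≤ x} (1 - 1 / p) · log x → e ^ (-γ)`;
* `sum_log_div_ap`, `sum_inv_ap`, `prod_ap` : the primes `p ≡ a mod q`, with the factor `1 / φ(q)`.
-/

set_option autoImplicit false

noncomputable section

open Filter Topology ArithmeticFunction.vonMangoldt DirichletCharacter

namespace Fermat.Agent.Cor.Mert

/-- the primes among `Nat.Primes` and the primes among the natural numbers -/
theorem sum_F_primes (T : ℕ → Prop) [DecidablePred T] (g : ℕ → ℝ) (n : ℕ) :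
    ∑ i ∈ (isCount_primes.F n).filter (fun i : Nat.Primes => T i), g i =
      ∑ p ∈ (Finset.Icc 1 n).filter (fun p : ℕ => p.Prime ∧ T p), g p := by
  refine Finset.sum_bij' (fun (i : Nat.Primes) _ => (i : ℕ))
    (fun p hp => (⟨p, (Finset.mem_filter.mp hp).2.1⟩ : Nat.Primes)) ?_ ?_ ?_ ?_ ?_
  · intro i hi
    rw [Finset.mem_filter, isCount_primes.mem_F] at hi
    rw [Finset.mem_filter, Finset.mem_Icc]
    exact ⟨⟨i.2.one_le, hi.1⟩, i.2, hi.2⟩
  · intro p hp
    have hp' := Finset.mem_filter.mp hp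
    rw [Finset.mem_Icc] at hp'
    exact Finset.mem_filter.mpr ⟨isCount_primes.mem_F.mpr hp'.1.2, hp'.2.2⟩
  · intro i _
    rfl
  · intro p _
    rfl
  · intro i _
    rfl

theorem prod_F_primes (T : ℕ → Prop) [DecidablePred T] (g : ℕ → ℝ) (n : ℕ) :
    ∏ i ∈ (isCount_primes.F n).filter (fun i : Nat.Primes => T i), g i =
      ∏ p ∈ (Finset.Icc 1 n).filter (fun p : ℕ => p.Prime ∧ T p), g p := by
  refine Finset.prod_bij' (fun (i : Nat.Primes) _ => (i : ℕ))
    (fun p hp => (⟨p, (Finset.mem_filter.mp hp).2.1⟩ : Nat.Primes)) ?_ ?_ ?_ ?_ ?_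
  · intro i hi
    rw [Finset.mem_filter, isCount_primes.mem_F] at hi
    rw [Finset.mem_filter, Finset.mem_Icc]
    exact ⟨⟨i.2.one_le, hi.1⟩, i.2, hi.2⟩
  · intro p hp
    have hp' := Finset.mem_filter.mp hp
    rw [Finset.mem_Icc] at hp'
    exact Finset.mem_filter.mpr ⟨isCount_primes.mem_F.mpr hp'.1.2, hp'.2.2⟩
  · intro i _
    rfl
  · intro p _
    rfl
  · intro i _
    rfl

theorem differentiable_deriv {f : ℂ → ℂ} (hf : Differentiable ℂ f) :
    Differentiable ℂ (deriv f) :=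
  differentiableOn_univ.mp (hf.differentiableOn.deriv isOpen_univ)

/-! ### Arithmetic progressions -/

section AP

variable {q : ℕ} [NeZero q] {a : ZMod q}

theorem differentiableAt_aux (a : ZMod q) : DifferentiableAt ℂ (LFunctionResidueClassAux a) 1 := by
  refine DifferentiableAt.const_mul (DifferentiableAt.fun_sub ?_ ?_) _
  · exact DifferentiableAt.div (differentiable_deriv (differentiable_LFunctionTrivChar₁ q) 1).fun_neg
      (differentiable_LFunctionTrivChar₁ q 1) (LFunctionTrivChar₁_apply_one_ne_zero q)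
  · refine DifferentiableAt.fun_sum fun χ hχ => ?_
    have hχ1 : χ ≠ 1 := by simpa using hχ
    exact DifferentiableAt.div (DifferentiableAt.const_mul
      (differentiable_deriv (differentiable_LFunction hχ1) 1) _)
      (differentiable_LFunction hχ1 1) (LFunction_apply_one_ne_zero hχ1)

/-- the logarithmic mean of `Λ` over a residue class -/
theorem tendsto_residueClass_div (ha : IsUnit a) :
    Tendsto (fun x : ℝ => (∑ n ∈ Finset.Icc 1 ⌊x⌋₊, residueClass a n / n) -
      (q.totient : ℝ)⁻¹ * Real.log x) atTop (𝓝 (LFunctionResidueClassAux a 1).re) := by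
  refine tendsto_sum_div_sub (G := LFunctionResidueClassAux a) (residueClass_nonneg a)
    (fun s hs => ?_) (continuousOn_LFunctionResidueClassAux a) (differentiableAt_aux a)
    fun s hs => ?_
  · exact LSeriesSummable_of_abscissaOfAbsConv_lt_re
      ((abscissaOfAbsConv_residueClass_le_one a).trans_lt (by exact_mod_cast hs))
  · rw [eqOn_LFunctionResidueClassAux ha hs]
    push_cast
    rfl

/-- the weights of a residue class -/
def apw (a : ZMod q) (p : Nat.Primes) (k : ℕ) : ℝ :=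
  if (((p : ℕ) ^ (k + 1) : ℕ) : ZMod q) = a then 1 else 0

omit [NeZero q] in
theorem apw_nonneg (a : ZMod q) (p : Nat.Primes) (k : ℕ) : 0 ≤ apw a p k := by
  unfold apw
  split_ifs <;> norm_num

omit [NeZero q] in
theorem apw_le_one (a : ZMod q) (p : Nat.Primes) (k : ℕ) : apw a p k ≤ 1 := by
  unfold apw
  split_ifs <;> norm_num

omit [NeZero q] in
theorem apw_zero (a : ZMod q) (p : Nat.Primes) :
    apw a p 0 = if ((p : ℕ) : ZMod q) = a then 1 else 0 := by
  unfold apw
  rw [zero_add, pow_one]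

theorem tendsto_vM_apw (ha : IsUnit a) : Tendsto (fun x : ℝ =>
      (∑ n ∈ Finset.Icc 1 ⌊x⌋₊, vM (fun p : Nat.Primes => (p : ℕ)) (apw a) n / n) -
      (q.totient : ℝ)⁻¹ * Real.log x) atTop (𝓝 (LFunctionResidueClassAux a 1).re) := by
  refine (tendsto_residueClass_div ha).congr fun x => ?_
  congr 1
  refine Finset.sum_congr rfl fun n _ => ?_
  rw [residueClass_eq_tsum, ← vM_ite (fun p : Nat.Primes => (p : ℕ))
    (fun p k => (((p : ℕ) ^ (k + 1) : ℕ) : ZMod q) = a)]
  rfl

/-- **Mertens' first theorem in arithmetic progressions.** -/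
theorem sum_log_div_ap (ha : IsUnit a) : ∃ C : ℝ, Tendsto (fun x : ℝ =>
      (∑ p ∈ (Finset.Icc 1 ⌊x⌋₊).filter (fun p : ℕ => p.Prime ∧ (p : ZMod q) = a), Real.log p / p) -
      (q.totient : ℝ)⁻¹ * Real.log x) atTop (𝓝 C) := by
  have h1 := isCount_primes.tendsto_lg (apw_nonneg a) (apw_le_one a) (tendsto_vM_apw ha)
  refine ⟨_, h1.congr fun x => ?_⟩
  rw [← sum_F_primes (fun p => (p : ZMod q) = a) (fun p => Real.log p / p), IsCount.lg,
    Finset.sum_filter]
  congr 1
  refine Finset.sum_congr rfl fun p _ => ?_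
  rw [apw_zero]
  split_ifs
  · rw [one_mul]
  · rw [zero_mul, zero_div]

/-- **Mertens' second theorem in arithmetic progressions**:
`∑_{p ≤ x, p ≡ a} 1 / p = (1 / φ(q)) log log x + B + o(1 / log x)`. -/
theorem sum_inv_ap (ha : IsUnit a) : ∃ B : ℝ, Tendsto (fun x : ℝ =>
      ((∑ p ∈ (Finset.Icc 1 ⌊x⌋₊).filter (fun p : ℕ => p.Prime ∧ (p : ZMod q) = a), (p : ℝ)⁻¹) -
      (q.totient : ℝ)⁻¹ * Real.log (Real.log x) - B) * Real.log x) atTop (𝓝 0) := by
  obtain ⟨B, hB⟩ := isCount_primes.exists_tendsto_rc (apw_nonneg a) (apw_le_one a)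
    (tendsto_vM_apw ha)
  refine ⟨B, hB.congr fun x => ?_⟩
  rw [← sum_F_primes (fun p => (p : ZMod q) = a) (fun p => (p : ℝ)⁻¹), IsCount.rc,
    Finset.sum_filter]
  congr 3
  refine Finset.sum_congr rfl fun p _ => ?_
  rw [apw_zero]
  split_ifs
  · rw [one_div]
  · rw [zero_div]

/-- **Mertens' product in arithmetic progressions**:
`∏_{p ≤ x, p ≡ a} (1 - 1 / p) ~ c (log x) ^ (-1 / φ(q))` with `c > 0`. -/
theorem prod_ap (ha : IsUnit a) : ∃ c : ℝ, 0 < c ∧ Tendsto (fun x : ℝ =>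
      (∏ p ∈ (Finset.Icc 1 ⌊x⌋₊).filter (fun p : ℕ => p.Prime ∧ (p : ZMod q) = a), (1 - (p : ℝ)⁻¹)) *
      Real.log x ^ (q.totient : ℝ)⁻¹) atTop (𝓝 c) := by
  obtain ⟨B, hB⟩ := isCount_primes.exists_tendsto_rc (apw_nonneg a) (apw_le_one a)
    (tendsto_vM_apw ha)
  have h1 := isCount_primes.tendsto_lp (apw_nonneg a) (apw_le_one a) (tendsto_of_mul_log hB)
  refine ⟨_, Real.exp_pos _, (isCount_primes.tendsto_prod
    (T := fun p : Nat.Primes => ((p : ℕ) : ZMod q) = a) (apw_zero a) h1).congr fun x => ?_⟩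
  rw [← prod_F_primes (fun p => (p : ZMod q) = a) (fun p => 1 - (p : ℝ)⁻¹)]

end AP

/-! ### All primes -/

theorem vM_primes (n : ℕ) : vM (fun p : Nat.Primes => (p : ℕ)) (fun _ _ => 1) n =
    ArithmeticFunction.vonMangoldt n := by
  have h2 : residueClass (1 : ZMod 1) n = ArithmeticFunction.vonMangoldt n :=
    Set.indicator_of_mem (show n ∈ {n : ℕ | (n : ZMod 1) = 1} from Subsingleton.elim _ _) _
  rw [← h2, residueClass_eq_tsum, ← vM_ite (fun p : Nat.Primes => (p : ℕ))
    (fun p k => (((p : ℕ) ^ (k + 1) : ℕ) : ZMod 1) = 1)]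
  congr 1
  ext p k
  rw [if_pos (Subsingleton.elim _ _)]

theorem hasDerivAt_trivChar :
    HasDerivAt (LFunctionTrivChar₁ 1) (Real.eulerMascheroniConstant : ℂ) 1 := by
  rw [hasDerivAt_iff_tendsto_slope]
  refine tendsto_riemannZeta_sub_one_div.congr' ?_
  filter_upwards [self_mem_nhdsWithin] with s hs
  have hs : s ≠ 1 := hs
  have hs' : s - 1 ≠ 0 := sub_ne_zero.mpr hs
  rw [slope_def_field, LFunctionTrivChar₁, Function.update_of_ne hs, Function.update_self,
    Nat.primeFactors_one, Finset.prod_empty, LFunctionTrivChar, LFunction_modOne_eq]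
  field_simp

theorem aux_one : LFunctionResidueClassAux (1 : ZMod 1) 1 = -(Real.eulerMascheroniConstant : ℂ) := by
  rw [LFunctionResidueClassAux, Finset.sum_eq_zero fun χ hχ =>
    absurd (Subsingleton.elim χ 1) (by simpa using hχ), hasDerivAt_trivChar.deriv,
    LFunctionTrivChar₁, Function.update_self, Nat.primeFactors_one, Finset.prod_empty,
    Nat.totient_one]
  simp

theorem tendsto_vM_primes : Tendsto (fun x : ℝ => (∑ n ∈ Finset.Icc 1 ⌊x⌋₊,
      vM (fun p : Nat.Primes => (p : ℕ)) (fun _ _ => 1) n / n) - 1 * Real.log x) atTop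
      (𝓝 (-Real.eulerMascheroniConstant)) := by
  have h := tendsto_residueClass_div (q := 1) (a := 1) isUnit_one
  rw [aux_one, Complex.neg_re, Complex.ofReal_re, Nat.totient_one, Nat.cast_one, inv_one] at h
  refine h.congr fun x => ?_
  congr 1
  refine Finset.sum_congr rfl fun n _ => ?_
  rw [vM_primes, residueClass,
    Set.indicator_of_mem (show n ∈ {n : ℕ | (n : ZMod 1) = 1} from Subsingleton.elim _ _)]

/-- **`∑_{n ≤ x} Λ(n) / n = log x - γ + o(1)`.** -/
theorem sum_vonMangoldt_div : Tendsto (fun x : ℝ => (∑ n ∈ Finset.Icc 1 ⌊x⌋₊,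
      ArithmeticFunction.vonMangoldt n / n) - Real.log x) atTop
      (𝓝 (-Real.eulerMascheroniConstant)) := by
  refine tendsto_vM_primes.congr fun x => ?_
  rw [one_mul]
  congr 1
  exact Finset.sum_congr rfl fun n _ => by rw [vM_primes]

/-- **Mertens' first theorem**, with its constant:
`∑_{p ≤ x} log p / p = log x - γ - ∑ log p / (p (p - 1)) + o(1)`. -/
theorem sum_log_div : Tendsto (fun x : ℝ =>
      (∑ p ∈ (Finset.Icc 1 ⌊x⌋₊).filter Nat.Prime, Real.log p / p) - Real.log x) atTop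
      (𝓝 (-Real.eulerMascheroniConstant -
        ∑' p : Nat.Primes, Real.log p / ((p : ℕ) * (((p : ℕ) : ℝ) - 1)))) := by
  have h1 := isCount_primes.tendsto_lg (c := fun _ _ => 1) (fun _ _ => zero_le_one)
    (fun _ _ => le_rfl) tendsto_vM_primes
  rw [isCount_primes.tsum_hw_one] at h1
  refine h1.congr fun x => ?_
  have h2 := sum_F_primes (fun _ => True) (fun p => Real.log p / p) ⌊x⌋₊
  simp only [and_true, Finset.filter_true] at h2
  rw [one_mul, ← h2, IsCount.lg]
  simp only [one_mul]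

/-- the Euler product of `ζ` near `1` -/
theorem tendsto_tsum_log_zeta :
    Tendsto (fun δ : ℝ => (∑' p : Nat.Primes, (1 : ℝ) *
      -Real.log (1 - ((p : ℕ) : ℝ) ^ (-(1 + δ)))) + 1 * Real.log δ) (𝓝[>] 0) (𝓝 0) := by
  have h0 : ∀ s : ℝ, 1 < s → ((Real.exp (∑' p : Nat.Primes,
      -Real.log (1 - ((p : ℕ) : ℝ) ^ (-s))) : ℝ) : ℂ) = riemannZeta s := by
    intro s hs
    rw [← riemannZeta_eulerProduct_exp_log (s := s) (by rw [Complex.ofReal_re]; exact hs),
      Complex.ofReal_exp, Complex.ofReal_tsum]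
    congr 1
    refine tsum_congr fun p => ?_
    have hN : (0 : ℝ) ≤ ((p : ℕ) : ℝ) := Nat.cast_nonneg _
    have h3 : ((p : ℕ) : ℂ) ^ (-(s : ℂ)) = ((((p : ℕ) : ℝ) ^ (-s) : ℝ) : ℂ) := by
      rw [Complex.ofReal_cpow hN]
      push_cast
      rfl
    have h4 : ((p : ℕ) : ℝ) ^ (-s) ≤ 1 := by
      refine Real.rpow_le_one_of_one_le_of_nonpos ?_ (by linarith)
      exact_mod_cast p.2.one_le
    rw [h3, ← Complex.ofReal_one, ← Complex.ofReal_sub, ← Complex.ofReal_log (by linarith),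
      ← Complex.ofReal_neg]
  have h1 : Tendsto (fun δ : ℝ => ((1 + δ : ℝ) : ℂ)) (𝓝[>] 0) (𝓝[≠] 1) := by
    refine tendsto_nhdsWithin_iff.mpr ⟨?_, ?_⟩
    · have h2 : Continuous fun δ : ℝ => ((1 + δ : ℝ) : ℂ) := by fun_prop
      have h3 := (h2.tendsto 0).mono_left (nhdsWithin_le_nhds (s := Set.Ioi 0))
      simpa only [add_zero, Complex.ofReal_one] using h3
    · filter_upwards [self_mem_nhdsWithin] with δ hδ
      have hδ : 0 < δ := hδ
      intro h
      rw [Set.mem_singleton_iff, ← Complex.ofReal_one, Complex.ofReal_inj] at h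
      linarith
  have h3 : Tendsto (fun δ : ℝ => δ * Real.exp (∑' p : Nat.Primes,
      -Real.log (1 - ((p : ℕ) : ℝ) ^ (-(1 + δ))))) (𝓝[>] 0) (𝓝 1) := by
    have h4 := (Complex.continuous_re.tendsto _).comp (riemannZeta_residue_one.comp h1)
    rw [Complex.one_re] at h4
    refine h4.congr' ?_
    filter_upwards [self_mem_nhdsWithin] with δ hδ
    have hδ : 0 < δ := hδ
    simp only [Function.comp_apply]
    rw [← h0 (1 + δ) (by linarith), ← Complex.ofReal_one,
      ← Complex.ofReal_sub, ← Complex.ofReal_mul, Complex.ofReal_re, add_sub_cancel_left]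
  have h4 := ((Real.continuousAt_log one_ne_zero).tendsto).comp h3
  rw [Real.log_one] at h4
  refine h4.congr' ?_
  filter_upwards [self_mem_nhdsWithin] with δ hδ
  have hδ : 0 < δ := hδ
  simp only [Function.comp_apply, one_mul]
  rw [Real.log_mul hδ.ne' (Real.exp_pos _).ne', Real.log_exp, add_comm]

/-- **Mertens' third theorem**: `∏_{p ≤ x} (1 - 1 / p) ~ e ^ (-γ) / log x`. -/
theorem prod_one_sub_inv : Tendsto (fun x : ℝ =>
      (∏ p ∈ (Finset.Icc 1 ⌊x⌋₊).filter Nat.Prime, (1 - (p : ℝ)⁻¹)) * Real.log x) atTop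
      (𝓝 (Real.exp (-Real.eulerMascheroniConstant))) := by
  have h1 := isCount_primes.tendsto_lp_of_tsum (c := fun _ _ => 1) (fun _ _ => zero_le_one)
    (fun _ _ => le_rfl) tendsto_vM_primes tendsto_tsum_log_zeta
  have h2 := isCount_primes.tendsto_prod (T := fun _ => True) (fun _ => (if_pos trivial).symm) h1
  rw [one_mul, add_zero] at h2
  refine h2.congr fun x => ?_
  have h3 := prod_F_primes (fun _ => True) (fun p => 1 - (p : ℝ)⁻¹) ⌊x⌋₊
  simp only [and_true] at h3
  rw [Real.rpow_one, h3]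

/-- the Meissel-Mertens constant `M = γ + ∑ (log (1 - 1 / p) + 1 / p)` -/
def meisselMertens : ℝ := Real.eulerMascheroniConstant +
  ∑' p : Nat.Primes, (Real.log (1 - ((p : ℕ) : ℝ)⁻¹) + ((p : ℕ) : ℝ)⁻¹)

/-- **Mertens' second theorem**, with its constant:
`∑_{p ≤ x} 1 / p = log log x + M + o(1 / log x)`. -/
theorem sum_inv : Tendsto (fun x : ℝ =>
      ((∑ p ∈ (Finset.Icc 1 ⌊x⌋₊).filter Nat.Prime, (p : ℝ)⁻¹) - Real.log (Real.log x) -
      meisselMertens) * Real.log x) atTop (𝓝 0) := by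
  have h1 := isCount_primes.tendsto_rc_of_tsum (c := fun _ _ => 1) (fun _ _ => zero_le_one)
    (fun _ _ => le_rfl) tendsto_vM_primes tendsto_tsum_log_zeta
  have h2 : (1 * Real.eulerMascheroniConstant + 0 -
      IsCount.rm (fun p : Nat.Primes => (p : ℕ)) (fun _ _ => 1)) = meisselMertens := by
    rw [meisselMertens, IsCount.rm, one_mul, add_zero, sub_eq_add_neg, ← tsum_neg]
    congr 2
    ext p
    rw [rem]
    ring
  rw [h2] at h1
  refine h1.congr fun x => ?_
  have h3 := sum_F_primes (fun _ => True) (fun p => (p : ℝ)⁻¹) ⌊x⌋₊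
  simp only [and_true, Finset.filter_true] at h3
  rw [one_mul, IsCount.rc, ← h3]
  simp only [one_div]

/-- `∑_{p ≤ x} 1 / p - log log x → M`. -/
theorem tendsto_sum_inv : Tendsto (fun x : ℝ =>
      (∑ p ∈ (Finset.Icc 1 ⌊x⌋₊).filter Nat.Prime, (p : ℝ)⁻¹) - Real.log (Real.log x)) atTop
      (𝓝 meisselMertens) := tendsto_of_mul_log sum_inv

end Fermat.Agent.Cor.Mert

end
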