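import Fermat.Agent.Corollaries.Mertens.Partial

/-!
# The constant: an Abelian theorem

If `b_n ≥ 0` and `∑_{n ≤ x} b_n = A log log x + B + o(1)`, then
`∑ b_n n ^ (-δ) = -A log δ + B - A γ + o(1)` as `δ → 0+`, `γ` the Euler-Mascheroni constant.
-/

set_option autoImplicit false

open MeasureTheory Set Filter Topology

namespace Fermat.Agent.Cor.Mert

/-- `∫_0^∞ log t e ^ (-t) dt = -γ` -/
theorem integral_log_mul_exp :
    ∫ t in Ioi (0 : ℝ), Real.log t * Real.exp (-t) = -Real.eulerMascheroniConstant := by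
  have h1 : HasDerivAt Complex.GammaIntegral
      (∫ t : ℝ in Ioi 0, (t : ℂ) ^ ((1 : ℂ) - 1) * (Real.log t * Real.exp (-t))) 1 :=
    Complex.hasDerivAt_GammaIntegral (by norm_num)
  have h2 : HasDerivAt Complex.GammaIntegral (-(Real.eulerMascheroniConstant : ℂ)) 1 := by
    refine Complex.hasDerivAt_Gamma_one.congr_of_eventuallyEq ?_
    filter_upwards [(isOpen_lt continuous_const Complex.continuous_re).mem_nhds
      (show (1 : ℂ) ∈ {s : ℂ | 0 < s.re} by simp)] with s hs
    exact (Complex.Gamma_eq_integral hs).symm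
  have h3 := h1.unique h2
  have h4 : (∫ t : ℝ in Ioi 0, (t : ℂ) ^ ((1 : ℂ) - 1) * (Real.log t * Real.exp (-t))) =
      ((∫ t in Ioi (0 : ℝ), Real.log t * Real.exp (-t) : ℝ) : ℂ) := by
    rw [← integral_complex_ofReal]
    congr 1
    ext t
    rw [sub_self, Complex.cpow_zero, one_mul]
    push_cast
    rfl
  rw [h4] at h3
  exact_mod_cast h3

theorem abs_log_le {t : ℝ} (ht : 0 < t) : |Real.log t| ≤ 2 * t ^ (-(1 / 2) : ℝ) + t := by
  have h0 : 0 < t ^ (-(1 / 2) : ℝ) := Real.rpow_pos_of_pos ht _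
  rcases le_total 1 t with h | h
  · rw [abs_of_nonneg (Real.log_nonneg h)]
    have := Real.log_le_sub_one_of_pos ht
    linarith
  · rw [abs_of_nonpos (Real.log_nonpos ht.le h), ← Real.log_inv]
    have h1 := Real.log_le_rpow_div (inv_nonneg.mpr ht.le) (show (0 : ℝ) < 1 / 2 by norm_num)
    rw [Real.inv_rpow ht.le, ← Real.rpow_neg ht.le] at h1
    linarith

theorem integrableOn_log_mul_exp :
    IntegrableOn (fun t : ℝ => |Real.log t| * Real.exp (-t)) (Ioi 0) := by
  have h1 := (Real.GammaIntegral_convergent (s := 1 / 2) (by norm_num)).const_mul 2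
  have h2 := Real.GammaIntegral_convergent (s := 2) (by norm_num)
  refine (h1.add h2).mono' ?_ ?_
  · have h3 : Measurable fun t : ℝ => |Real.log t| * Real.exp (-t) := by
      fun_prop
    exact h3.aestronglyMeasurable
  · filter_upwards [ae_restrict_mem measurableSet_Ioi] with t ht
    have ht : 0 < t := ht
    rw [Real.norm_of_nonneg (by positivity), Pi.add_apply]
    have h3 := mul_le_mul_of_nonneg_right (abs_log_le ht) (Real.exp_pos (-t)).le
    refine h3.trans (le_of_eq ?_)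
    rw [show (1 / 2 - 1 : ℝ) = -(1 / 2) by norm_num, show (2 - 1 : ℝ) = 1 by norm_num,
      Real.rpow_one]
    ring

theorem integrableOn_exp_neg' : IntegrableOn (fun t : ℝ => Real.exp (-t)) (Ioi 0) := by
  have h := Real.GammaIntegral_convergent (s := 1) (by norm_num)
  simpa only [sub_self, Real.rpow_zero, mul_one] using h

variable {b : ℕ → ℝ}

theorem sumU_nonneg (hb : ∀ n, 0 ≤ b n) (x : ℝ) : 0 ≤ sumU b x :=
  Finset.sum_nonneg fun n _ => hb n

theorem sumU_mono (hb : ∀ n, 0 ≤ b n) : Monotone (sumU b) := fun x y hxy => by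
  refine Finset.sum_le_sum_of_subset_of_nonneg ?_ fun n _ _ => hb n
  exact Finset.Icc_subset_Icc le_rfl (Nat.floor_mono hxy)

/-- the growth of `∑_{n ≤ x} b_n` -/
theorem isBigO_sumU {A B : ℝ}
    (h : Tendsto (fun x : ℝ => sumU b x - A * Real.log (Real.log x)) atTop (𝓝 B)) {r : ℝ}
    (hr : 0 < r) :
    (fun n : ℕ => ∑ k ∈ Finset.Icc 1 n, b k) =O[atTop] fun n : ℕ => (n : ℝ) ^ r := by
  have h1 : ∀ᶠ x : ℝ in atTop, |sumU b x - A * Real.log (Real.log x)| ≤ |B| + 1 := by
    have h2 := h.abs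
    filter_upwards [h2.eventually (Iio_mem_nhds (lt_add_one |B|))] with x hx
    exact le_of_lt hx
  have h2 : ∀ᶠ x : ℝ in atTop, ‖sumU b x‖ ≤ (|A| / r + (|B| + 1)) * ‖x ^ r‖ := by
    filter_upwards [h1, eventually_ge_atTop (Real.exp 1)] with x hx hx1
    have hx0 : 1 ≤ x := by
      have := Real.add_one_lt_exp (one_ne_zero (α := ℝ))
      linarith
    have hl1 : 1 ≤ Real.log x := by
      rwa [Real.le_log_iff_exp_le (by linarith)]
    have hll0 : 0 ≤ Real.log (Real.log x) := Real.log_nonneg hl1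
    have hll1 : Real.log (Real.log x) ≤ Real.log x :=
      (Real.log_le_sub_one_of_pos (by linarith)).trans (by linarith)
    have hl2 := Real.log_le_rpow_div (x := x) (by linarith) hr
    have hx2 : 1 ≤ x ^ r := Real.one_le_rpow hx0 hr.le
    rw [Real.norm_eq_abs, Real.norm_of_nonneg (by positivity)]
    have h3 := abs_add_le (sumU b x - A * Real.log (Real.log x)) (A * Real.log (Real.log x))
    rw [sub_add_cancel, abs_mul, abs_of_nonneg hll0] at h3
    have h4 : |A| * Real.log (Real.log x) ≤ |A| * (x ^ r / r) := by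
      gcongr
      linarith
    have h5 : |B| + 1 ≤ (|B| + 1) * x ^ r := le_mul_of_one_le_right (by positivity) hx2
    calc |sumU b x| ≤ (|B| + 1) * x ^ r + |A| * (x ^ r / r) := by linarith
      _ = _ := by ring
  have h3 := (tendsto_natCast_atTop_atTop (R := ℝ)).eventually h2
  refine Asymptotics.IsBigO.of_bound (|A| / r + (|B| + 1)) ?_
  filter_upwards [h3] with n hn
  rwa [sumU, Nat.floor_natCast] at hn

/-- the Dirichlet series as an integral -/
theorem tsum_rpow_eq {A B : ℝ} (hb : ∀ n, 0 ≤ b n)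
    (h : Tendsto (fun x : ℝ => sumU b x - A * Real.log (Real.log x)) atTop (𝓝 B)) {δ : ℝ}
    (hδ : 0 < δ) :
    ∑' n : ℕ, b n * (n : ℝ) ^ (-δ) =
      ∫ t in Ioi (0 : ℝ), sumU b (Real.exp (δ⁻¹ * t)) * Real.exp (-t) := by
  have h1 := LSeries_eq_mul_integral_of_nonneg b (r := δ / 2) (by positivity)
    (s := (δ : ℂ)) (by rw [Complex.ofReal_re]; linarith) (isBigO_sumU h (by positivity)) hb
  have h2 : LSeries (fun n => (b n : ℂ)) (δ : ℂ) = ((∑' n : ℕ, b n * (n : ℝ) ^ (-δ) : ℝ) : ℂ) := by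
    rw [LSeries, Complex.ofReal_tsum]
    refine tsum_congr fun n => ?_
    rcases eq_or_ne n 0 with rfl | hn
    · rw [LSeries.term_zero, Nat.cast_zero, Real.zero_rpow (by linarith), mul_zero,
        Complex.ofReal_zero]
    · rw [LSeries.term_of_ne_zero hn, Complex.ofReal_mul, Complex.ofReal_cpow (Nat.cast_nonneg n),
        Complex.ofReal_natCast, Complex.ofReal_neg, Complex.cpow_neg, div_eq_mul_inv]
  have h3 : ∫ t in Ioi (1 : ℝ), (∑ k ∈ Finset.Icc 1 ⌊t⌋₊, (b k : ℂ)) *
      (t : ℂ) ^ (-((δ : ℂ) + 1)) = ((∫ t in Ioi (1 : ℝ), sumU b t * t ^ (-(δ + 1)) : ℝ) : ℂ) := by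
    rw [← integral_complex_ofReal]
    refine setIntegral_congr_fun measurableSet_Ioi fun t ht => ?_
    have ht0 : (0 : ℝ) ≤ t := le_trans zero_le_one (le_of_lt ht)
    rw [sumU, Complex.ofReal_mul, Complex.ofReal_cpow ht0]
    push_cast
    rfl
  rw [h2, h3] at h1
  have h4 : ∑' n : ℕ, b n * (n : ℝ) ^ (-δ) = δ * ∫ t in Ioi (1 : ℝ), sumU b t * t ^ (-(δ + 1)) := by
    exact_mod_cast h1
  rw [h4]
  have h5 := integral_comp_exp_Ioi (fun y : ℝ => sumU b y * y ^ (-(δ + 1))) 0
  rw [Real.exp_zero] at h5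
  rw [← h5]
  have h6 := integral_comp_mul_left_Ioi (fun v : ℝ => sumU b (Real.exp v) * Real.exp (-(δ * v))) 0
    (inv_pos.mpr hδ)
  rw [mul_zero, inv_inv, smul_eq_mul] at h6
  have h7 : ∫ t in Ioi (0 : ℝ), sumU b (Real.exp (δ⁻¹ * t)) * Real.exp (-t) =
      ∫ x in Ioi (0 : ℝ), sumU b (Real.exp (δ⁻¹ * x)) * Real.exp (-(δ * (δ⁻¹ * x))) := by
    congr 1
    ext t
    rw [mul_inv_cancel_left₀ hδ.ne']
  rw [h7, h6]
  congr 2
  ext v
  rw [smul_eq_mul, ← Real.exp_mul, mul_left_comm, ← Real.exp_add]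
  congr 2
  ring

/-- **The Abelian theorem**: the constants of `∑_{n ≤ x} b_n = A log log x + B + o(1)` and of
`∑ b_n n ^ (-δ) = -A log δ + B' + o(1)` differ by `A γ`. -/
theorem tendsto_tsum_rpow {A B : ℝ} (hb : ∀ n, 0 ≤ b n)
    (h : Tendsto (fun x : ℝ => sumU b x - A * Real.log (Real.log x)) atTop (𝓝 B)) :
    Tendsto (fun δ : ℝ => (∑' n : ℕ, b n * (n : ℝ) ^ (-δ)) + A * Real.log δ) (𝓝[>] 0)
      (𝓝 (B - A * Real.eulerMascheroniConstant)) := by
  -- `u v = U(e ^ v) - A log v`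
  set u : ℝ → ℝ := fun v => sumU b (Real.exp v) - A * Real.log v with hu
  have hu1 : Tendsto u atTop (𝓝 B) := by
    refine (h.comp Real.tendsto_exp_atTop).congr fun v => ?_
    simp only [Function.comp_apply, Real.log_exp, hu]
  -- the bound
  obtain ⟨V, hV1, hV⟩ : ∃ V : ℝ, 1 ≤ V ∧ ∀ v, V ≤ v → |u v| ≤ |B| + 1 := by
    have h2 := hu1.abs.eventually (Iio_mem_nhds (lt_add_one |B|))
    obtain ⟨V, hV⟩ := eventually_atTop.mp h2
    exact ⟨max V 1, le_max_right _ _, fun v hv => le_of_lt (hV v ((le_max_left _ _).trans hv))⟩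
  set C₁ : ℝ := |B| + 1 + sumU b (Real.exp V) + |A| * Real.log V with hC₁
  have hlV : 0 ≤ Real.log V := Real.log_nonneg hV1
  have hUV : 0 ≤ sumU b (Real.exp V) := sumU_nonneg hb _
  have hbd : ∀ δ t : ℝ, 0 < δ → δ ≤ 1 → 0 < t → |u (δ⁻¹ * t)| ≤ C₁ + |A| * |Real.log t| := by
    intro δ t hδ hδ1 ht
    have hv0 : 0 < δ⁻¹ * t := by positivity
    rcases le_or_gt V (δ⁻¹ * t) with h1 | h1
    · have h2 := hV _ h1
      have : 0 ≤ |A| * Real.log V := by positivity
      have : 0 ≤ |A| * |Real.log t| := by positivity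
      linarith
    · have h2 : |sumU b (Real.exp (δ⁻¹ * t))| ≤ sumU b (Real.exp V) := by
        rw [abs_of_nonneg (sumU_nonneg hb _)]
        exact sumU_mono hb (Real.exp_le_exp.mpr h1.le)
      have h3 : |Real.log (δ⁻¹ * t)| ≤ Real.log V + |Real.log t| := by
        rcases le_total 1 (δ⁻¹ * t) with h4 | h4
        · rw [abs_of_nonneg (Real.log_nonneg h4)]
          have := Real.log_le_log hv0 h1.le
          have := abs_nonneg (Real.log t)
          linarith
        · rw [abs_of_nonpos (Real.log_nonpos hv0.le h4)]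
          have h5 : t ≤ δ⁻¹ * t := by
            have : 1 ≤ δ⁻¹ := (one_le_inv₀ hδ).mpr hδ1
            nlinarith
          have h6 := Real.log_le_log ht h5
          have h7 := neg_abs_le (Real.log t)
          linarith
      have h4 : |u (δ⁻¹ * t)| ≤ |sumU b (Real.exp (δ⁻¹ * t))| + |A| * |Real.log (δ⁻¹ * t)| := by
        rw [← abs_mul]
        exact abs_sub _ _
      have h5 : |A| * |Real.log (δ⁻¹ * t)| ≤ |A| * (Real.log V + |Real.log t|) := by
        gcongr
      have : 0 ≤ |B| := abs_nonneg B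
      linarith
  have hmeasU : Measurable (sumU b) := (sumU_mono hb).measurable
  have hI1 := integrableOn_exp_neg'
  have hI2 := integrableOn_log_mul_exp
  have hI3 : IntegrableOn (fun t : ℝ => Real.log t * Real.exp (-t)) (Ioi 0) := by
    refine hI2.mono' (by
      have : Measurable fun t : ℝ => Real.log t * Real.exp (-t) := by fun_prop
      exact this.aestronglyMeasurable) (Eventually.of_forall fun t => ?_)
    rw [norm_mul, Real.norm_eq_abs, Real.norm_of_nonneg (Real.exp_pos _).le]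
  have hmeas : ∀ δ : ℝ, Measurable fun t : ℝ =>
      (u (δ⁻¹ * t) + A * Real.log t) * Real.exp (-t) := by
    intro δ
    have hm : Measurable fun t : ℝ => sumU b (Real.exp (δ⁻¹ * t)) :=
      hmeasU.comp (by fun_prop)
    have hm2 : Measurable fun t : ℝ => u (δ⁻¹ * t) := hm.sub (by fun_prop)
    exact (hm2.add (by fun_prop)).mul (by fun_prop)
  have hdom : ∀ δ t : ℝ, 0 < δ → δ ≤ 1 → 0 < t →
      ‖(u (δ⁻¹ * t) + A * Real.log t) * Real.exp (-t)‖ ≤
      C₁ * Real.exp (-t) + 2 * |A| * (|Real.log t| * Real.exp (-t)) := by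
    intro δ t hδ hδ1 ht
    rw [norm_mul, Real.norm_of_nonneg (Real.exp_pos (-t)).le, Real.norm_eq_abs]
    have h1 := hbd δ t hδ hδ1 ht
    have h2 := abs_add_le (u (δ⁻¹ * t)) (A * Real.log t)
    rw [abs_mul] at h2
    have h3 : |u (δ⁻¹ * t) + A * Real.log t| ≤ C₁ + 2 * |A| * |Real.log t| := by linarith
    calc |u (δ⁻¹ * t) + A * Real.log t| * Real.exp (-t) ≤
        (C₁ + 2 * |A| * |Real.log t|) * Real.exp (-t) :=
          mul_le_mul_of_nonneg_right h3 (Real.exp_pos _).le
      _ = _ := by ring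
  have hlim : Tendsto (fun δ : ℝ => ∫ t in Ioi (0 : ℝ),
      (u (δ⁻¹ * t) + A * Real.log t) * Real.exp (-t)) (𝓝[>] 0)
      (𝓝 (∫ t in Ioi (0 : ℝ), (B + A * Real.log t) * Real.exp (-t))) := by
    refine tendsto_integral_filter_of_dominated_convergence
      (fun t => C₁ * Real.exp (-t) + 2 * |A| * (|Real.log t| * Real.exp (-t))) ?_ ?_
      ((hI1.const_mul _).add (hI2.const_mul _)) ?_
    · exact Eventually.of_forall fun δ => Measurable.aestronglyMeasurable (hmeas δ)
    · filter_upwards [Ioc_mem_nhdsGT (zero_lt_one (α := ℝ))] with δ hδ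
      filter_upwards [ae_restrict_mem measurableSet_Ioi] with t ht
      exact hdom δ t hδ.1 hδ.2 ht
    · filter_upwards [ae_restrict_mem measurableSet_Ioi] with t ht
      have ht : 0 < t := ht
      refine Tendsto.mul_const _ (Tendsto.add_const _ ?_)
      have h1 : Tendsto (fun δ : ℝ => δ⁻¹ * t) (𝓝[>] 0) atTop :=
        tendsto_inv_nhdsGT_zero.atTop_mul_const ht
      exact hu1.comp h1
  have hval : ∫ t in Ioi (0 : ℝ), (B + A * Real.log t) * Real.exp (-t) =
      B - A * Real.eulerMascheroniConstant := by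
    have h1 : (fun t : ℝ => (B + A * Real.log t) * Real.exp (-t)) =
        fun t => B * Real.exp (-t) + A * (Real.log t * Real.exp (-t)) := by
      ext t
      ring
    rw [h1, integral_add (hI1.const_mul _) (hI3.const_mul _), integral_const_mul,
      integral_const_mul, integral_log_mul_exp, integral_exp_neg_Ioi_zero]
    ring
  rw [hval] at hlim
  refine hlim.congr' ?_
  filter_upwards [Ioc_mem_nhdsGT (zero_lt_one (α := ℝ))] with δ hδ'
  have hδ : 0 < δ := hδ'.1
  rw [tsum_rpow_eq hb h hδ]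
  have hI5 : IntegrableOn (fun t : ℝ => (u (δ⁻¹ * t) + A * Real.log t) * Real.exp (-t))
      (Ioi 0) := by
    refine ((hI1.const_mul C₁).add (hI2.const_mul (2 * |A|))).mono'
      (Measurable.aestronglyMeasurable (hmeas δ)) ?_
    filter_upwards [ae_restrict_mem measurableSet_Ioi] with t ht
    exact hdom δ t hδ hδ'.2 ht
  have hI6 : IntegrableOn (fun t : ℝ => A * Real.log δ * Real.exp (-t)) (Ioi 0) :=
    hI1.const_mul _
  have h1 : ∫ t in Ioi (0 : ℝ), A * Real.log δ * Real.exp (-t) = A * Real.log δ := by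
    rw [integral_const_mul, integral_exp_neg_Ioi_zero, mul_one]
  have h2 : ∫ t in Ioi (0 : ℝ), sumU b (Real.exp (δ⁻¹ * t)) * Real.exp (-t) =
      ∫ t in Ioi (0 : ℝ), ((u (δ⁻¹ * t) + A * Real.log t) * Real.exp (-t) -
        A * Real.log δ * Real.exp (-t)) := by
    refine setIntegral_congr_fun measurableSet_Ioi fun t ht => ?_
    have ht : 0 < t := ht
    simp only [hu]
    rw [Real.log_mul (inv_ne_zero hδ.ne') ht.ne', Real.log_inv]
    ring
  rw [h2, integral_sub hI5 hI6, h1]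
  ring

end Fermat.Agent.Cor.Mert
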