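import Fermat.Agent.Corollaries.Mertens.Abel
import Fermat.Agent.Corollaries.ZetaK.PrimeCount

/-!
# Mertens' theorems for a family of "primes"

`ι` a set of "primes" with norms `N i ≥ 2`, at most `D x` of norm `≤ x` (`IsCount`), `c i k` the
weight of the prime power `i ^ (k + 1)`, between `0` and `1`.
-/

set_option autoImplicit false

open Filter Topology

noncomputable section

namespace Fermat.Agent.Cor

open Mert

variable {ι : Type*} {N : ι → ℕ}

namespace IsCount

variable {D : ℝ} (h : IsCount N D)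

include h in
theorem one_lt (i : ι) : (1 : ℝ) < N i := by exact_mod_cast h.two_le i

include h in
theorem pos (i : ι) : (0 : ℝ) < N i := by linarith [h.one_lt i]

include h in
/-- `∑ N i ^ (-σ)` converges for `σ > 1` -/
theorem summable_rpow {σ : ℝ} (hσ : 1 < σ) : Summable fun i => (N i : ℝ) ^ (-σ) := by
  have hD := h.D_nonneg
  let L : ι → ℕ := fun i => Nat.log 2 (N i)
  have hlow : ∀ i, 2 ^ L i ≤ N i := fun i =>
    Nat.pow_log_le_self 2 (by have := h.two_le i; omega)
  have hupp : ∀ i, N i ≤ 2 ^ (L i + 1) := fun i => (Nat.lt_pow_succ_log_self (by norm_num) _).le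
  have hfin : ∀ j, Finite {i // L i = j} := fun j => by
    refine Set.Finite.to_subtype ((h.fin (2 ^ (j + 1))).subset fun i hi => ?_)
    have hi : L i = j := hi
    exact hi ▸ hupp i
  rw [← (Equiv.sigmaFiberEquiv L).summable_iff, summable_sigma_of_nonneg]
  · refine ⟨fun j => ?_, ?_⟩
    · have := hfin j
      exact Summable.of_finite
    · have hgeo : Summable fun j : ℕ => 2 * D * ((2 : ℝ) ^ (1 - σ)) ^ j := by
        refine (summable_geometric_of_lt_one (by positivity) ?_).mul_left _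
        exact Real.rpow_lt_one_of_one_lt_of_neg (by norm_num) (by linarith)
      refine Summable.of_nonneg_of_le (fun j => tsum_nonneg fun y => by
        simp only [Function.comp_apply]
        positivity) (fun j => ?_) hgeo
      have := hfin j
      have := Fintype.ofFinite {i // L i = j}
      rw [tsum_fintype]
      have h1 : ∀ y : {i // L i = j}, (((fun i => (N i : ℝ) ^ (-σ)) ∘ (Equiv.sigmaFiberEquiv L))
          ⟨j, y⟩) ≤ ((2 : ℝ) ^ j) ^ (-σ) := by
        rintro ⟨i, hi⟩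
        simp only [Function.comp_apply, Equiv.sigmaFiberEquiv_apply]
        refine Real.rpow_le_rpow_of_nonpos (by positivity) ?_ (by linarith)
        rw [← hi]
        exact_mod_cast hlow i
      refine (Finset.sum_le_card_nsmul _ _ _ fun y _ => h1 y).trans ?_
      rw [nsmul_eq_mul, Finset.card_univ, ← Nat.card_eq_fintype_card]
      have h2 : (Nat.card {i // L i = j} : ℝ) ≤ D * 2 ^ (j + 1) := by
        have h3 := h.card (2 ^ (j + 1))
        push_cast at h3
        refine le_trans ?_ h3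
        have h4 : ({i | L i = j} : Set ι).ncard ≤ {i | N i ≤ 2 ^ (j + 1)}.ncard := by
          refine Set.ncard_le_ncard (fun i hi => ?_) (h.fin _)
          have hi : L i = j := hi
          exact hi ▸ hupp i
        exact_mod_cast h4
      calc (Nat.card {i // L i = j} : ℝ) * ((2 : ℝ) ^ j) ^ (-σ) ≤
          D * 2 ^ (j + 1) * ((2 : ℝ) ^ j) ^ (-σ) := by gcongr
        _ = 2 * D * ((2 : ℝ) ^ (1 - σ)) ^ j := by
          have h5 : ((2 : ℝ) ^ (1 - σ)) ^ j = 2 ^ j * ((2 : ℝ) ^ j) ^ (-σ) := by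
            rw [← Real.rpow_natCast, ← Real.rpow_natCast, ← Real.rpow_mul (by norm_num),
              ← Real.rpow_mul (by norm_num), ← Real.rpow_add (by norm_num)]
            congr 1
            ring
          rw [h5, pow_succ]
          ring
  · rintro ⟨j, y⟩
    simp only [Function.comp_apply]
    positivity

/-! ### The higher prime powers -/

/-- the terms of the higher prime powers -/
def hw (N : ι → ℕ) (c : ι → ℕ → ℝ) (p : ι × ℕ) : ℝ :=
  if p.2 = 0 then 0 else c p.1 p.2 * Real.log (N p.1) / (N p.1 : ℝ) ^ (p.2 + 1)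

include h in
theorem summable_hw {c : ι → ℕ → ℝ} (hc0 : ∀ i k, 0 ≤ c i k) (hc1 : ∀ i k, c i k ≤ 1) :
    Summable (hw N c) := by
  have h1 := ((h.summable_rpow (σ := 3 / 2) (by norm_num)).mul_left 4).mul_of_nonneg
    (summable_geometric_of_lt_one (r := (1 / 2 : ℝ)) (by norm_num) (by norm_num))
    (fun i => by positivity) (fun k => by positivity)
  refine Summable.of_nonneg_of_le (fun p => ?_) (fun p => ?_) h1
  · unfold hw
    split_ifs
    · exact le_rfl
    · have := h.log_nonneg p.1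
      have := hc0 p.1 p.2
      positivity
  · obtain ⟨i, k⟩ := p
    have hN := h.pos i
    have hN2 : (2 : ℝ) ≤ N i := by exact_mod_cast h.two_le i
    unfold hw
    simp only
    split_ifs with hk
    · positivity
    · obtain ⟨m, rfl⟩ := Nat.exists_eq_succ_of_ne_zero hk
      have hl := Real.log_le_rpow_div hN.le (show (0 : ℝ) < 1 / 2 by norm_num)
      have hl0 := h.log_nonneg i
      have e1 : (N i : ℝ) ^ (-(3 / 2) : ℝ) = (N i : ℝ) ^ (1 / 2 : ℝ) / (N i : ℝ) ^ 2 := by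
        rw [← Real.rpow_natCast (N i : ℝ) 2, ← Real.rpow_sub hN]
        norm_num
      have e2 : (N i : ℝ) ^ (m.succ + 1) = (N i : ℝ) ^ 2 * (N i : ℝ) ^ m := by
        rw [← pow_add]
        congr 1
        omega
      have hp : 0 < (N i : ℝ) ^ m := by positivity
      have hp2 : (2 : ℝ) ^ m ≤ (N i : ℝ) ^ m := by gcongr
      have hr : 0 ≤ (N i : ℝ) ^ (1 / 2 : ℝ) := by positivity
      rw [e1, e2, Nat.succ_eq_add_one, pow_succ]
      calc c i (m + 1) * Real.log (N i) / ((N i : ℝ) ^ 2 * (N i : ℝ) ^ m) ≤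
          1 * ((N i : ℝ) ^ (1 / 2 : ℝ) / (1 / 2)) / ((N i : ℝ) ^ 2 * 2 ^ m) := by
            gcongr
            exact hc1 i _
        _ = 4 * ((N i : ℝ) ^ (1 / 2 : ℝ) / (N i : ℝ) ^ 2) * ((1 / 2) ^ m * (1 / 2)) := by
            rw [one_div_pow]
            field_simp
            ring

theorem tendsto_G : Tendsto (fun x : ℕ => h.G x) atTop atTop := by
  refine tendsto_atTop_finset_of_monotone (fun x y hxy p hp => ?_) fun p => ?_
  · rw [mem_G] at hp ⊢
    exact hp.trans hxy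
  · exact ⟨N p.1 ^ (p.2 + 1), h.mem_G.mpr le_rfl⟩

/-- the sum over the primes -/
def lg (c : ι → ℕ → ℝ) (x : ℕ) : ℝ := ∑ i ∈ h.F x, c i 0 * Real.log (N i) / N i

theorem sum_vM_div (c : ι → ℕ → ℝ) (x : ℕ) : ∑ n ∈ Finset.Icc 1 x, vM N c n / n =
    h.lg c x + ∑ p ∈ h.G x, hw N c p := by
  classical
  have h1 : ∑ n ∈ Finset.Icc 1 x, vM N c n / n =
      ∑ p ∈ h.G x, c p.1 p.2 * Real.log (N p.1) / (N p.1 : ℝ) ^ (p.2 + 1) := by
    rw [← Finset.sum_fiberwise_of_maps_to (s := h.G x) (t := Finset.Icc 1 x)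
      (g := fun p => N p.1 ^ (p.2 + 1))]
    · refine Finset.sum_congr rfl fun n hn => ?_
      rw [h.vM_eq c (Finset.mem_Icc.1 hn).2, Finset.sum_div]
      refine Finset.sum_congr rfl fun p hp => ?_
      rw [← (Finset.mem_filter.mp hp).2]
      push_cast
      rfl
    · intro p hp
      rw [Finset.mem_Icc]
      exact ⟨Nat.one_le_pow _ _ (by have := h.two_le p.1; omega), h.mem_G.1 hp⟩
  have h2 : ∀ p ∈ h.G x, c p.1 p.2 * Real.log (N p.1) / (N p.1 : ℝ) ^ (p.2 + 1) =
      (if p.2 = 0 then c p.1 0 * Real.log (N p.1) / N p.1 else 0) + hw N c p := by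
    rintro ⟨i, k⟩ _
    unfold hw
    by_cases hk : k = 0
    · subst hk
      simp
    · simp [hk]
  rw [h1, Finset.sum_congr rfl h2, Finset.sum_add_distrib]
  congr 1
  rw [lg, ← Finset.sum_filter]
  refine Finset.sum_bij' (fun p _ => p.1) (fun i _ => (i, 0)) ?_ ?_ ?_ ?_ ?_
  · rintro ⟨i, k⟩ hp
    rw [Finset.mem_filter, mem_G] at hp
    obtain ⟨hp1, hp2⟩ := hp
    simp only at hp1 hp2
    subst hp2
    exact h.mem_F.mpr (by simpa using hp1)
  · intro i hi
    rw [Finset.mem_filter, mem_G]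
    exact ⟨by simpa using h.mem_F.mp hi, rfl⟩
  · rintro ⟨i, k⟩ hp
    rw [Finset.mem_filter] at hp
    have : k = 0 := hp.2
    subst this
    rfl
  · intro i _
    rfl
  · rintro ⟨i, k⟩ _
    rfl

/-- **First theorem**: the logarithmic mean over the primes. -/
theorem tendsto_lg {c : ι → ℕ → ℝ} (hc0 : ∀ i k, 0 ≤ c i k) (hc1 : ∀ i k, c i k ≤ 1) {A C : ℝ}
    (hA : Tendsto (fun x : ℝ => (∑ n ∈ Finset.Icc 1 ⌊x⌋₊, vM N c n / n) - A * Real.log x) atTop
      (𝓝 C)) :
    Tendsto (fun x : ℝ => h.lg c ⌊x⌋₊ - A * Real.log x) atTop (𝓝 (C - ∑' p, hw N c p)) := by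
  have h1 : Tendsto (fun x : ℝ => ∑ p ∈ h.G ⌊x⌋₊, hw N c p) atTop (𝓝 (∑' p, hw N c p)) :=
    ((h.summable_hw hc0 hc1).hasSum.comp h.tendsto_G).comp tendsto_nat_floor_atTop
  refine (hA.sub h1).congr fun x => ?_
  rw [h.sum_vM_div]
  ring

/-! ### The second theorem -/

/-- the coefficients of the sum over the primes -/
def cf (c : ι → ℕ → ℝ) (n : ℕ) : ℝ := (∑ i ∈ h.F n with N i = n, c i 0) / n

theorem cf_nonneg {c : ι → ℕ → ℝ} (hc0 : ∀ i k, 0 ≤ c i k) (n : ℕ) : 0 ≤ h.cf c n :=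
  div_nonneg (Finset.sum_nonneg fun i _ => hc0 i 0) (Nat.cast_nonneg n)

/-- the sum of the reciprocals of the norms -/
def rc (c : ι → ℕ → ℝ) (x : ℕ) : ℝ := ∑ i ∈ h.F x, c i 0 / N i

theorem sum_cf_mul (c : ι → ℕ → ℝ) (g : ℕ → ℝ) (x : ℕ) :
    ∑ n ∈ Finset.Icc 1 x, h.cf c n * g n = ∑ i ∈ h.F x, c i 0 / N i * g (N i) := by
  classical
  rw [← Finset.sum_fiberwise_of_maps_to (s := h.F x) (t := Finset.Icc 1 x) (g := N)]
  · refine Finset.sum_congr rfl fun n hn => ?_
    have hF : (h.F n).filter (fun i => N i = n) = (h.F x).filter fun i => N i = n := by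
      ext i
      simp only [Finset.mem_filter, mem_F]
      have := (Finset.mem_Icc.mp hn).2
      exact ⟨fun hi => ⟨by omega, hi.2⟩, fun hi => ⟨by omega, hi.2⟩⟩
    rw [cf, hF, Finset.sum_div, Finset.sum_mul]
    refine Finset.sum_congr rfl fun i hi => ?_
    rw [(Finset.mem_filter.mp hi).2]
  · intro i hi
    rw [Finset.mem_Icc]
    exact ⟨by have := h.two_le i; omega, h.mem_F.mp hi⟩

theorem sumU_cf (c : ι → ℕ → ℝ) (x : ℝ) : sumU (h.cf c) x = h.rc c ⌊x⌋₊ := by
  have := h.sum_cf_mul c (fun _ => 1) ⌊x⌋₊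
  simp only [mul_one] at this
  exact this

theorem sumL_cf (c : ι → ℕ → ℝ) (x : ℝ) : sumL (h.cf c) x = h.lg c ⌊x⌋₊ := by
  have := h.sum_cf_mul c (fun n => Real.log n) ⌊x⌋₊
  rw [sumL, this, lg]
  refine Finset.sum_congr rfl fun i _ => ?_
  ring

/-- **Second theorem**: `∑_{N i ≤ x} c i / N i = A log log x + B + o(1 / log x)`. -/
theorem exists_tendsto_rc {c : ι → ℕ → ℝ} (hc0 : ∀ i k, 0 ≤ c i k) (hc1 : ∀ i k, c i k ≤ 1)
    {A C : ℝ}
    (hA : Tendsto (fun x : ℝ => (∑ n ∈ Finset.Icc 1 ⌊x⌋₊, vM N c n / n) - A * Real.log x) atTop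
      (𝓝 C)) :
    ∃ B : ℝ, Tendsto (fun x : ℝ => (h.rc c ⌊x⌋₊ - A * Real.log (Real.log x) - B) * Real.log x)
      atTop (𝓝 0) := by
  have h1 := h.tendsto_lg hc0 hc1 hA
  simp only [← sumL_cf] at h1
  obtain ⟨B, hB⟩ := exists_tendsto_loglog h1
  refine ⟨B, ?_⟩
  simpa only [sumU_cf] using hB

end IsCount

end Fermat.Agent.Cor

end
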