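import Fermat.Agent.Corollaries.Mertens.Series
import Fermat.Agent.Corollaries.Mertens.Product
import Fermat.Agent.Corollaries.ZetaK.Landau
import Fermat.Agent.Corollaries.ZetaK.EulerK

/-!
# The analytic input of Mertens' theorems over a number field
-/

set_option autoImplicit false
set_option linter.unusedSectionVars false

noncomputable section

open NumberField NumberField.InfinitePlace nonZeroDivisors Filter Topology IsDedekindDomain

open scoped Classical

namespace Fermat.Agent.Cor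

open Fermat.Agent.ClassL Fermat.Agent.Classic.Zeta Mert

universe u

variable {K : Type u} [Field K] [NumberField K]

/-! ### The regular part of the Dirichlet series -/

/-- the regular part at `1` of the Dirichlet series of `LamC C` -/
def Mert.GC (C : ClassGroup (𝓞 K)) (s : ℂ) : ℂ :=
  (Nat.card (ClassGroup (𝓞 K)) : ℂ)⁻¹ *
    ∑ χ : ClassGroup (𝓞 K) →* ℂˣ, ((χ C : ℂˣ) : ℂ)⁻¹ * -(deriv (Wχ χ) s / Wχ χ s)

theorem Mert.differentiableAt_quot (χ : ClassGroup (𝓞 K) →* ℂˣ) {s : ℂ} (hs : 1 ≤ s.re) :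
    DifferentiableAt ℂ (fun s => deriv (Wχ χ) s / Wχ χ s) s := by
  refine DifferentiableAt.div ?_ (differentiable_Wχ χ s) (Wχ_ne_zero χ hs)
  exact ((differentiable_Wχ χ).differentiableOn.deriv isOpen_univ).differentiableAt univ_mem

theorem Mert.differentiableAt_GC (C : ClassGroup (𝓞 K)) {s : ℂ} (hs : 1 ≤ s.re) :
    DifferentiableAt ℂ (GC C) s := by
  refine DifferentiableAt.const_mul ?_ _
  exact DifferentiableAt.fun_sum fun χ _ =>
    DifferentiableAt.const_mul (Mert.differentiableAt_quot χ hs).fun_neg _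

theorem Mert.GC_eq (C : ClassGroup (𝓞 K)) {s : ℂ} (hs : 1 < s.re) :
    GC C s = LSeries (fun n => (LamC C n : ℂ)) s -
      (((Nat.card (ClassGroup (𝓞 K)) : ℝ)⁻¹ : ℝ) : ℂ) / (s - 1) := by
  rw [LSeries_LamC C hs, LdC, Mert.GC]
  have h : ∀ χ : ClassGroup (𝓞 K) →* ℂˣ, ((χ C : ℂˣ) : ℂ)⁻¹ * -(deriv (Ls χ) s / Ls χ s) =
      ((χ C : ℂˣ) : ℂ)⁻¹ * -(deriv (Wχ χ) s / Wχ χ s) + if χ = 1 then 1 / (s - 1) else 0 := by
    intro χ
    rw [deriv_Ls_eq χ hs, Ls_eq_LK χ hs, logDeriv_LK χ hs, mul_add]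
    congr 1
    split_ifs with h
    · rw [h, MonoidHom.one_apply, Units.val_one, inv_one, one_mul]
    · rw [mul_zero]
  simp only [h]
  rw [Finset.sum_add_distrib, Finset.sum_ite_eq' Finset.univ, if_pos (Finset.mem_univ _), mul_add]
  push_cast
  ring

theorem Mert.sum_GC (s : ℂ) : ∑ C : ClassGroup (𝓞 K), GC C s =
    -(deriv (Wχ (1 : ClassGroup (𝓞 K) →* ℂˣ)) s / Wχ (1 : ClassGroup (𝓞 K) →* ℂˣ) s) := by
  unfold Mert.GC
  rw [← Finset.mul_sum, Finset.sum_comm]
  have h : ∀ χ : ClassGroup (𝓞 K) →* ℂˣ,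
      ∑ C : ClassGroup (𝓞 K), ((χ C : ℂˣ) : ℂ)⁻¹ * -(deriv (Wχ χ) s / Wχ χ s) =
      if χ = 1 then (Nat.card (ClassGroup (𝓞 K)) : ℂ) * -(deriv (Wχ χ) s / Wχ χ s) else 0 := by
    intro χ
    rw [← Finset.sum_mul]
    split_ifs with hχ
    · subst hχ
      simp [Nat.card_eq_fintype_card]
    · have h1 : χ⁻¹ ≠ 1 := by
        intro h
        refine hχ (MonoidHom.ext fun C => ?_)
        have h2 := DFunLike.congr_fun h C
        rwa [MonoidHom.inv_apply, MonoidHom.one_apply, inv_eq_one] at h2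
      have h2 := sum_char_eq_zero h1
      have h3 : ∑ C : ClassGroup (𝓞 K), ((χ C : ℂˣ) : ℂ)⁻¹ =
          ∑ C : ClassGroup (𝓞 K), (((χ⁻¹) C : ℂˣ) : ℂ) := by
        refine Finset.sum_congr rfl fun C _ => ?_
        rw [MonoidHom.inv_apply, Units.val_inv_eq_inv_val]
      rw [h3, h2, zero_mul]
  simp only [h]
  rw [Finset.sum_ite_eq' Finset.univ, if_pos (Finset.mem_univ _), ← mul_assoc, inv_mul_cancel₀,
    one_mul]
  exact_mod_cast Nat.card_pos.ne'

/-- **The logarithmic mean of `Λ` over an ideal class.** -/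
theorem tendsto_LamC_div (C : ClassGroup (𝓞 K)) :
    Tendsto (fun x : ℝ => (∑ n ∈ Finset.Icc 1 ⌊x⌋₊, LamC C n / n) -
      (Nat.card (ClassGroup (𝓞 K)) : ℝ)⁻¹ * Real.log x) atTop (𝓝 (Mert.GC C 1).re) :=
  tendsto_sum_div_sub (LamC_nonneg C) (fun s hs => lseriesSummable_LamC C hs)
    (fun s hs => (Mert.differentiableAt_GC C hs).continuousAt.continuousWithinAt)
    (Mert.differentiableAt_GC C (by simp)) fun s hs => Mert.GC_eq C hs

theorem sum_LamC_class (n : ℕ) : ∑ C : ClassGroup (𝓞 K), LamC C n =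
    vM (nP (K := K)) (fun _ _ => 1) n := by
  unfold LamC vM
  rw [← Summable.tsum_finsetSum fun C _ => Summable.of_finite]
  refine tsum_congr fun q => ?_
  rw [sum_lw, one_mul]

theorem vM_class (C : ClassGroup (𝓞 K)) (n : ℕ) :
    vM (nP (K := K)) (fun P k => if ClassGroup.mk0 P.1 ^ (k + 1) = C then 1 else 0) n =
      LamC C n := by
  rw [vM_ite, LamC_eq_and]

/-- **The logarithmic mean of `Λ`** over a number field. -/
theorem tendsto_vM_div : Tendsto (fun x : ℝ =>
      (∑ n ∈ Finset.Icc 1 ⌊x⌋₊, vM (nP (K := K)) (fun _ _ => 1) n / n) - 1 * Real.log x) atTop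
      (𝓝 (-(deriv (WK (K := K) fun _ => 1) 1 / WK (K := K) (fun _ => 1) 1)).re) := by
  have h1 := tendsto_finsetSum Finset.univ fun (C : ClassGroup (𝓞 K)) _ => tendsto_LamC_div C
  have h2 : ∑ C : ClassGroup (𝓞 K), (Mert.GC C 1).re =
      (-(deriv (WK (K := K) fun _ => 1) 1 / WK (K := K) (fun _ => 1) 1)).re := by
    rw [← Complex.re_sum, Mert.sum_GC, Wχ, if_pos rfl]
  rw [h2] at h1
  refine h1.congr fun x => ?_
  rw [Finset.sum_sub_distrib, Finset.sum_comm]
  congr 1
  · refine Finset.sum_congr rfl fun n _ => ?_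
    rw [← Finset.sum_div, sum_LamC_class]
  · rw [Finset.sum_const, Finset.card_univ, nsmul_eq_mul, ← Nat.card_eq_fintype_card, ← mul_assoc,
      mul_inv_cancel₀]
    exact_mod_cast Nat.card_pos.ne'

/-! ### The Euler product near `1` -/

theorem exp_tsum_log_real {s : ℝ} (hs : 1 < s) :
    ((Real.exp (∑' P : Pr K, -Real.log (1 - (nP P : ℝ) ^ (-s))) : ℝ) : ℂ) = dedekindZeta K s := by
  have h1 := exp_tsum_log_one (K := K) (s := s) (by rw [Complex.ofReal_re]; exact hs)
  have h2 := tsum_nchar (K := K) (s := s) (by rw [Complex.ofReal_re]; exact hs)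
  simp only [nchar_apply] at h2
  rw [← h2, ← h1, Complex.ofReal_exp, Complex.ofReal_tsum]
  congr 1
  refine tsum_congr fun P => ?_
  have hN : (0 : ℝ) ≤ nP P := Nat.cast_nonneg _
  have h3 : (Ideal.absNorm (P.1 : Ideal (𝓞 K)) : ℂ) ^ (-(s : ℂ)) =
      (((nP P : ℝ) ^ (-s) : ℝ) : ℂ) := by
    rw [Complex.ofReal_cpow hN, nP]
    push_cast
    rfl
  have h4 : (nP P : ℝ) ^ (-s) ≤ 1 := by
    refine Real.rpow_le_one_of_one_le_of_nonpos ?_ (by linarith)
    exact_mod_cast nP_pos P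
  rw [h3, ← Complex.ofReal_one, ← Complex.ofReal_sub, ← Complex.ofReal_log (by linarith),
    ← Complex.ofReal_neg]

theorem tendsto_tsum_log_zetaK :
    Tendsto (fun δ : ℝ => (∑' P : Pr K, (1 : ℝ) * -Real.log (1 - (nP P : ℝ) ^ (-(1 + δ)))) +
      1 * Real.log δ) (𝓝[>] 0) (𝓝 (Real.log (dedekindZeta_residue K))) := by
  have hκ := dedekindZeta_residue_pos K
  have h1 : Tendsto (fun δ : ℝ => 1 + δ) (𝓝[>] 0) (𝓝[>] 1) := by
    refine tendsto_nhdsWithin_iff.mpr ⟨?_, ?_⟩
    · have h2 : Continuous fun δ : ℝ => 1 + δ := by fun_prop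
      have h3 := (h2.tendsto 0).mono_left (nhdsWithin_le_nhds (s := Set.Ioi 0))
      simpa only [add_zero] using h3
    · filter_upwards [self_mem_nhdsWithin] with δ hδ
      have hδ : 0 < δ := hδ
      change 1 < 1 + δ
      linarith
  have h2 := (tendsto_sub_one_mul_dedekindZeta_nhdsGT K).comp h1
  have h3 : Tendsto (fun δ : ℝ => δ *
      Real.exp (∑' P : Pr K, -Real.log (1 - (nP P : ℝ) ^ (-(1 + δ))))) (𝓝[>] 0)
      (𝓝 (dedekindZeta_residue K)) := by
    have h4 := (Complex.continuous_re.tendsto _).comp h2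
    rw [Complex.ofReal_re] at h4
    refine h4.congr' ?_
    filter_upwards [self_mem_nhdsWithin] with δ hδ
    have hδ : 0 < δ := hδ
    simp only [Function.comp_apply]
    rw [← exp_tsum_log_real (K := K) (show 1 < 1 + δ by linarith), ← Complex.ofReal_one,
      ← Complex.ofReal_sub, ← Complex.ofReal_mul, Complex.ofReal_re, add_sub_cancel_left]
  have h4 := ((Real.continuousAt_log hκ.ne').tendsto).comp h3
  refine h4.congr' ?_
  filter_upwards [self_mem_nhdsWithin] with δ hδ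
  have hδ : 0 < δ := hδ
  simp only [Function.comp_apply, one_mul]
  rw [Real.log_mul hδ.ne' (Real.exp_pos _).ne', Real.log_exp, add_comm]

end Fermat.Agent.Cor

end
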