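import Mathlib

/-!
# Kernels with compactly supported Fourier transform
-/

set_option autoImplicit false

open MeasureTheory Set Filter Topology FourierTransform SchwartzMap

namespace Fermat.Agent.Cor.Mert

/-- an integrable kernel of mass one, with first moment, whose Fourier transform is `φ`, continuous
with compact support -/
structure IsKer (φ K : ℝ → ℂ) : Prop where
  cont : Continuous φ
  supp : HasCompactSupport φ
  contK : Continuous K
  eq : ∀ w, K w = ∫ v : ℝ, Complex.exp (((-2 * Real.pi * v * w : ℝ) : ℂ) * Complex.I) * φ v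
  int : Integrable K
  int1 : Integrable fun w => |w| * ‖K w‖
  one : ∫ w, K w = 1

theorem exists_isKer : ∃ φ K, IsKer φ K := by
  let b : ContDiffBump (0 : ℝ) := ⟨1, 2, one_pos, one_lt_two⟩
  let φ : ℝ → ℂ := fun x => (b x : ℂ)
  have hs : HasCompactSupport φ := b.hasCompactSupport.comp_left Complex.ofReal_zero
  have hd : ContDiff ℝ (⊤ : ℕ∞) φ := Complex.ofRealCLM.contDiff.comp b.contDiff
  let Φ : 𝓢(ℝ, ℂ) := hs.toSchwartzMap hd
  have hΦ : (Φ : ℝ → ℂ) = φ := by
    ext x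
    rfl
  let Κ : 𝓢(ℝ, ℂ) := 𝓕 Φ
  have hK : (Κ : ℝ → ℂ) = 𝓕 φ := by
    rw [← hΦ]
    rfl
  refine ⟨φ, Κ, hd.continuous, hs, Κ.continuous, ?_, Κ.integrable, ?_, ?_⟩
  · intro w
    rw [hK, Real.fourier_real_eq_integral_exp_smul]
    simp only [smul_eq_mul]
  · have := Κ.integrable_pow_mul (μ := volume) 1
    simpa only [pow_one, Real.norm_eq_abs] using this
  · have h1 : (𝓕⁻ Κ : 𝓢(ℝ, ℂ)) = Φ := FourierTransform.fourierInv_fourier_eq Φ
    have h2 : (𝓕⁻ Κ : 𝓢(ℝ, ℂ)) 0 = 1 := by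
      rw [h1]
      change (b 0 : ℂ) = 1
      rw [b.one_of_mem_closedBall (Metric.mem_closedBall_self (by norm_num)), Complex.ofReal_one]
    have h3 : (𝓕⁻ Κ : 𝓢(ℝ, ℂ)) 0 = ∫ w, Κ w := by
      have h4 : (𝓕⁻ Κ : 𝓢(ℝ, ℂ)) 0 = 𝓕⁻ (Κ : ℝ → ℂ) 0 := by
        rw [SchwartzMap.fourierInv_coe]
      rw [h4, Real.fourierInv_eq']
      simp
    rw [← h3, h2]

theorem IsKer.scale {φ K : ℝ → ℂ} (h : IsKer φ K) {R : ℝ} (hR : 0 < R) :
    IsKer (fun v => φ (v / R)) (fun w => R * K (R * w)) where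
  cont := h.cont.comp (by fun_prop)
  supp := by
    have := h.supp.comp_homeomorph (Homeomorph.mulRight₀ R⁻¹ (inv_ne_zero hR.ne'))
    simpa only [Function.comp_def, Homeomorph.coe_mulRight₀, ← div_eq_mul_inv] using this
  contK := continuous_const.mul (h.contK.comp (by fun_prop))
  eq w := by
    rw [h.eq]
    have h1 := Measure.integral_comp_mul_left (fun v : ℝ =>
      Complex.exp (((-2 * Real.pi * v * w : ℝ) : ℂ) * Complex.I) * φ (v / R)) R
    rw [abs_of_pos (inv_pos.mpr hR), Complex.real_smul] at h1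
    have h2 : (fun v : ℝ => Complex.exp (((-2 * Real.pi * (R * v) * w : ℝ) : ℂ) * Complex.I) *
        φ (R * v / R)) = fun v : ℝ =>
        Complex.exp (((-2 * Real.pi * v * (R * w) : ℝ) : ℂ) * Complex.I) * φ v := by
      ext v
      rw [mul_div_cancel_left₀ _ hR.ne']
      congr 4
      ring
    rw [h2] at h1
    rw [h1, ← mul_assoc, Complex.ofReal_inv, mul_inv_cancel₀, one_mul]
    exact_mod_cast hR.ne'
  int := (h.int.comp_mul_left' hR.ne').const_mul _
  int1 := by
    have h1 := (h.int1.comp_mul_left' hR.ne')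
    refine h1.congr (Eventually.of_forall fun w => ?_)
    simp only
    rw [norm_mul, Complex.norm_real, Real.norm_of_nonneg hR.le, abs_mul, abs_of_pos hR]
    ring
  one := by
    rw [integral_const_mul, Measure.integral_comp_mul_left K R, abs_of_pos (inv_pos.mpr hR),
      Complex.real_smul, ← mul_assoc, Complex.ofReal_inv, mul_inv_cancel₀, one_mul, h.one]
    exact_mod_cast hR.ne'

theorem integral_scale {K : ℝ → ℂ} {R : ℝ} (hR : 0 < R) :
    ∫ w : ℝ, |w| * ‖(R : ℂ) * K (R * w)‖ = R⁻¹ * ∫ w : ℝ, |w| * ‖K w‖ := by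
  have h1 := Measure.integral_comp_mul_left (fun w : ℝ => |w| * ‖K w‖) R
  rw [abs_of_pos (inv_pos.mpr hR), smul_eq_mul] at h1
  rw [← h1]
  congr 1
  ext w
  rw [norm_mul, Complex.norm_real, Real.norm_of_nonneg hR.le, abs_mul, abs_of_pos hR]
  ring

/-- there are kernels with arbitrarily small first moment -/
theorem exists_isKer_le {ε : ℝ} (hε : 0 < ε) :
    ∃ φ K, IsKer φ K ∧ ∫ w : ℝ, |w| * ‖K w‖ ≤ ε := by
  obtain ⟨φ, K, h⟩ := exists_isKer
  have h0 : 0 ≤ ∫ w : ℝ, |w| * ‖K w‖ := integral_nonneg fun w => by positivity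
  set c := ∫ w : ℝ, |w| * ‖K w‖ with hc
  have hR : 0 < (c + 1) / ε := by positivity
  refine ⟨_, _, h.scale hR, ?_⟩
  rw [integral_scale hR, ← hc, inv_div, div_mul_eq_mul_div, div_le_iff₀ (by positivity)]
  nlinarith

end Fermat.Agent.Cor.Mert
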