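import Fermat.Agent.Corollaries.Mertens.Field
import Fermat.Agent.Corollaries.Mertens.Higher

/-!
# The Euler-Kronecker constant

* `mertens_first_const` : `∑_{N v ≤ x} log N v / N v = log x - γ_K - ∑ log N v / (N v (N v - 1)) +
  o(1)`, `γ_K` the Euler-Kronecker constant;
* `tendsto_eulerKronecker` : `ζ_K'(s) / ζ_K(s) + 1 / (s - 1) → γ_K`, `s → 1`.
-/

set_option autoImplicit false
set_option linter.unusedSectionVars false

noncomputable section

open NumberField NumberField.InfinitePlace nonZeroDivisors Filter Topology IsDedekindDomain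

open scoped Classical

namespace Fermat.Agent.Cor.Mert

open Fermat.Agent.ClassL Fermat.Agent.Classic.Zeta

universe u

variable (K : Type u) [Field K] [NumberField K]

/-- **Mertens' first theorem over a number field**, with its constant:
`∑_{N v ≤ x} log N v / N v = log x - γ_K - ∑ log N v / (N v (N v - 1)) + o(1)`. -/
theorem mertens_first_const :
    Tendsto (fun x : ℝ => (∑ v ∈ placesLe K x,
      Real.log (Ideal.absNorm v.asIdeal) / Ideal.absNorm v.asIdeal) - Real.log x) atTop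
      (𝓝 (-eulerKronecker K - ∑' v : HeightOneSpectrum (𝓞 K), Real.log (Ideal.absNorm v.asIdeal) /
        (Ideal.absNorm v.asIdeal * ((Ideal.absNorm v.asIdeal : ℝ) - 1)))) := by
  obtain ⟨D, h⟩ := exists_isCount K
  have h1 := h.tendsto_lg (c := fun _ _ => 1) (fun _ _ => zero_le_one) (fun _ _ => le_rfl)
    tendsto_vM_div
  rw [h.tsum_hw_one, Complex.neg_re, ← (prEquiv K).tsum_eq] at h1
  refine h1.congr fun x => ?_
  rw [one_mul, IsCount.lg, ← sum_placesLe h (fun P => 1 * Real.log (nP P) / (nP P : ℝ))]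
  simp only [nP_prEquiv, one_mul]

/-! ### The Euler-Kronecker constant -/

/-- the Dirichlet series of a real sequence is real on the real axis -/
theorem LSeries_ofReal (a : ℕ → ℝ) {s : ℝ} (hs : s ≠ 0) :
    LSeries (fun n => (a n : ℂ)) (s : ℂ) = ((∑' n : ℕ, a n * (n : ℝ) ^ (-s) : ℝ) : ℂ) := by
  rw [LSeries, Complex.ofReal_tsum]
  refine tsum_congr fun n => ?_
  rcases eq_or_ne n 0 with rfl | hn
  · rw [LSeries.term_zero, Nat.cast_zero, Real.zero_rpow (neg_ne_zero.mpr hs), mul_zero,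
      Complex.ofReal_zero]
  · rw [LSeries.term_of_ne_zero hn, Complex.ofReal_mul, Complex.ofReal_cpow (Nat.cast_nonneg n),
      Complex.ofReal_natCast, Complex.ofReal_neg, Complex.cpow_neg, div_eq_mul_inv]

theorem differentiableAt_W {s : ℂ} (hs : 1 ≤ s.re) : DifferentiableAt ℂ
    (fun s => deriv (WK (K := K) fun _ => 1) s / WK (K := K) (fun _ => 1) s) s := by
  have h := differentiableAt_quot (1 : ClassGroup (𝓞 K) →* ℂˣ) hs
  rwa [Wχ, if_pos rfl] at h

theorem im_W {s : ℝ} (hs : 1 < s) :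
    (deriv (WK (K := K) fun _ => 1) (s : ℂ) / WK (K := K) (fun _ => 1) (s : ℂ)).im = 0 := by
  have hs' : 1 < (s : ℂ).re := by rwa [Complex.ofReal_re]
  have h1 := sum_GC (K := K) (s : ℂ)
  rw [Wχ, if_pos rfl] at h1
  have h2 : (∑ C : ClassGroup (𝓞 K), GC C (s : ℂ)).im = 0 := by
    rw [Complex.im_sum]
    refine Finset.sum_eq_zero fun C _ => ?_
    rw [GC_eq C hs', LSeries_ofReal _ (by linarith : s ≠ 0), ← Complex.ofReal_one,
      ← Complex.ofReal_sub, ← Complex.ofReal_div, ← Complex.ofReal_sub, Complex.ofReal_im]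
  rw [h1, Complex.neg_im, neg_eq_zero] at h2
  exact h2

theorem tendsto_ofReal_nhdsGT : Tendsto (fun s : ℝ => (s : ℂ)) (𝓝[>] 1) (𝓝 1) := by
  have h2 := (Complex.continuous_ofReal.tendsto 1).mono_left
    (nhdsWithin_le_nhds (s := Set.Ioi (1 : ℝ)))
  simpa only [Complex.ofReal_one] using h2

theorem coe_eulerKronecker : (eulerKronecker K : ℂ) =
    deriv (WK (K := K) fun _ => 1) 1 / WK (K := K) (fun _ => 1) 1 := by
  have h1 := (differentiableAt_W K (s := 1) (by simp)).continuousAt.tendsto.comp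
    tendsto_ofReal_nhdsGT
  have h2 := (Complex.continuous_im.tendsto _).comp h1
  have h3 : Tendsto (fun _ : ℝ => (0 : ℝ)) (𝓝[>] (1 : ℝ)) (𝓝
      (deriv (WK (K := K) fun _ => 1) 1 / WK (K := K) (fun _ => 1) 1).im) := by
    refine h2.congr' ?_
    filter_upwards [self_mem_nhdsWithin] with s hs
    exact im_W K hs
  have h4 := tendsto_nhds_unique h3 tendsto_const_nhds
  refine Complex.ext ?_ ?_
  · rw [Complex.ofReal_re, eulerKronecker]
  · rw [Complex.ofReal_im, h4]

/-- **The Euler-Kronecker constant** is the constant term of the logarithmic derivative of `ζ_K`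
at `1`: `ζ_K'(s) / ζ_K(s) + 1 / (s - 1) → γ_K`, `s → 1`. -/
theorem tendsto_eulerKronecker :
    Tendsto (fun s : ℂ => deriv (zetaK K) s / zetaK K s + 1 / (s - 1)) (𝓝[≠] 1)
      (𝓝 (eulerKronecker K : ℂ)) := by
  rw [coe_eulerKronecker]
  have h1 := (differentiableAt_W K (s := 1) (by simp)).continuousAt.tendsto.mono_left
    (nhdsWithin_le_nhds (s := {1}ᶜ))
  have h2 : ∀ᶠ s : ℂ in 𝓝[≠] 1, WK (K := K) (fun _ => 1) s ≠ 0 :=
    ((differentiable_WK (K := K) fun _ => 1).continuous.continuousAt.eventually_ne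
      WK_one_ne_zero).filter_mono nhdsWithin_le_nhds
  refine h1.congr' ?_
  filter_upwards [h2, self_mem_nhdsWithin] with s hs hs1
  have hs1 : s ≠ 1 := hs1
  have hs1' : s - 1 ≠ 0 := sub_ne_zero.mpr hs1
  have h3 : WK (K := K) (fun _ => 1) =ᶠ[𝓝 s] fun w => (w - 1) * zetaK K w := by
    filter_upwards [isOpen_ne.mem_nhds hs1] with w hw
    rw [WK_eq _ hw]
    rfl
  have hz : zetaK K s ≠ 0 := by
    intro h0
    rw [h3.eq_of_nhds, h0, mul_zero] at hs
    exact hs rfl
  have hd : DifferentiableAt ℂ (zetaK K) s := differentiableAt_LF _ hs1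
  have h4 : HasDerivAt (fun w : ℂ => (w - 1) * zetaK K w)
      (1 * zetaK K s + (s - 1) * deriv (zetaK K) s) s :=
    ((hasDerivAt_id s).sub_const 1).mul hd.hasDerivAt
  rw [h3.deriv_eq, h4.deriv, h3.eq_of_nhds]
  field_simp
  ring

end Fermat.Agent.Cor.Mert

end
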