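import Fermat.Agent.Corollaries.Mertens.Kernel

/-!
# Newman's analytic theorem

Let `f` be a bounded measurable function on `(0, ∞)` whose Laplace transform
`g(s) = ∫_0^∞ f(t) e ^ (-s t) dt`, `Re s > 0`, extends to a continuous function on the closed half
plane `0 ≤ Re s`, differentiable at `0`. Then `∫_0^T f(t) dt → g(0)`, `T → ∞`.

The proof: `G(T) = ∫_0^T f - g(0)` is Lipschitz, and its Laplace transform is the difference
quotient of `g` at `0`; so its convolution with a kernel with compactly supported Fourier transform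
tends to zero (Riemann-Lebesgue).
-/

set_option autoImplicit false

open MeasureTheory Set Filter Topology FourierTransform

namespace Fermat.Agent.Cor.Mert

/-- the hypotheses of Newman's theorem -/
structure LapDat (f : ℝ → ℂ) (g : ℂ → ℂ) (M : ℝ) : Prop where
  meas : Measurable f
  bound : ∀ t, 0 < t → ‖f t‖ ≤ M
  cont : ContinuousOn g {s : ℂ | 0 ≤ s.re}
  diff : DifferentiableAt ℂ g 0
  lap : ∀ s : ℂ, 0 < s.re → g s = ∫ t in Ioi (0 : ℝ), f t * Complex.exp (-(s * t))

/-- the primitive of `f`, zero on the negative axis -/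
noncomputable def prim (f : ℝ → ℂ) (T : ℝ) : ℂ := ∫ t in (0 : ℝ)..(max T 0), f t

/-- the difference quotient of `g` at `0` -/
noncomputable def quo (g : ℂ → ℂ) (s : ℂ) : ℂ := dslope g 0 s

variable {f : ℝ → ℂ} {g : ℂ → ℂ} {M : ℝ}

namespace LapDat

theorem nonneg (D : LapDat f g M) : 0 ≤ M := (norm_nonneg _).trans (D.bound 1 one_pos)

theorem intervalIntegrable (D : LapDat f g M) (x : ℝ) :
    IntervalIntegrable f volume 0 (max x 0) := by
  rw [intervalIntegrable_iff_integrableOn_Ioc_of_le (le_max_right _ _)]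
  refine Measure.integrableOn_of_bounded (M := M) ?_ D.meas.aestronglyMeasurable ?_
  · simp
  · filter_upwards [ae_restrict_mem measurableSet_Ioc] with t ht
    exact D.bound t ht.1

theorem lip (D : LapDat f g M) (x y : ℝ) : ‖prim f x - prim f y‖ ≤ M * |x - y| := by
  unfold prim
  rw [intervalIntegral.integral_interval_sub_left (D.intervalIntegrable x)
    (D.intervalIntegrable y)]
  refine (intervalIntegral.norm_integral_le_of_norm_le_const (C := M) fun t ht => ?_).trans ?_
  · refine D.bound t (lt_of_le_of_lt ?_ ht.1)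
    exact le_min (le_max_right _ _) (le_max_right _ _)
  · exact mul_le_mul_of_nonneg_left (abs_max_sub_max_le_abs x y 0) D.nonneg

theorem continuous_prim (D : LapDat f g M) : Continuous (prim f) := by
  have : LipschitzWith ⟨M, D.nonneg⟩ (prim f) := LipschitzWith.of_dist_le_mul fun x y => by
    rw [dist_eq_norm, Real.dist_eq]
    exact D.lip x y
  exact this.continuous

theorem prim_of_nonpos {T : ℝ} (hT : T ≤ 0) : prim f T = 0 := by
  rw [prim, max_eq_right hT, intervalIntegral.integral_same]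

theorem norm_prim_le (D : LapDat f g M) (x : ℝ) : ‖prim f x‖ ≤ M * |x| := by
  have := D.lip x 0
  rwa [prim_of_nonpos le_rfl, sub_zero, sub_zero] at this

theorem norm_prim_sub_le (D : LapDat f g M) (x : ℝ) : ‖prim f x - g 0‖ ≤ M * |x| + ‖g 0‖ :=
  (norm_sub_le _ _).trans (by gcongr; exact D.norm_prim_le x)

/-! ### The Laplace transform of the primitive -/

theorem integrableOn_exp {σ : ℝ} (hσ : 0 < σ) :
    IntegrableOn (fun t : ℝ => Real.exp (-(σ * t))) (Ioi 0) := by
  have h := integrableOn_exp_mul_Ioi (a := -σ) (by linarith) 0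
  exact h.congr (Eventually.of_forall fun t => by simp)

theorem integral_exp {s : ℂ} (hs : 0 < s.re) (c : ℝ) :
    ∫ t in Ioi c, Complex.exp (-(s * t)) = Complex.exp (-(s * c)) / s := by
  have h1 := integral_exp_mul_complex_Ioi (a := -s) (by simpa using hs) c
  simp only [neg_mul, neg_div_neg_eq] at h1
  exact h1

theorem integrable_fubini (D : LapDat f g M) {s : ℂ} (hs : 0 < s.re) :
    Integrable (fun z : ℝ × ℝ => if z.2 ≤ z.1 then f z.2 * Complex.exp (-(s * z.1)) else 0)
      ((volume.restrict (Ioi 0)).prod (volume.restrict (Ioi 0))) := by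
  have hσ : 0 < s.re / 2 := by positivity
  have h1 := ((integrableOn_exp hσ).const_mul M).mul_prod (integrableOn_exp hσ)
  refine Integrable.mono' h1 ?_ ?_
  · refine Measurable.aestronglyMeasurable (Measurable.ite
      (measurableSet_le measurable_snd measurable_fst) ?_ measurable_const)
    exact (D.meas.comp measurable_snd).mul (by fun_prop)
  · rw [Measure.prod_restrict]
    filter_upwards [ae_restrict_mem (measurableSet_Ioi.prod measurableSet_Ioi)] with z hz
    obtain ⟨hz1, hz2⟩ := hz
    have hz1 : 0 < z.1 := hz1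
    have hz2 : 0 < z.2 := hz2
    have hM := D.nonneg
    split_ifs with h
    · rw [norm_mul, Complex.norm_exp, mul_assoc, ← Real.exp_add]
      refine mul_le_mul (D.bound _ hz2) (Real.exp_le_exp.mpr ?_) (Real.exp_pos _).le hM
      simp only [Complex.neg_re, Complex.mul_re, Complex.ofReal_re, Complex.ofReal_im, mul_zero,
        sub_zero]
      nlinarith
    · rw [norm_zero]
      positivity

theorem integral_prim (D : LapDat f g M) {s : ℂ} (hs : 0 < s.re) :
    ∫ t in Ioi (0 : ℝ), prim f t * Complex.exp (-(s * t)) = g s / s := by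
  have h1 := integral_integral_swap (f := fun t u : ℝ =>
    if u ≤ t then f u * Complex.exp (-(s * t)) else 0) (D.integrable_fubini hs)
  have h2 : ∫ t in Ioi (0 : ℝ), (∫ u in Ioi (0 : ℝ),
      if u ≤ t then f u * Complex.exp (-(s * t)) else 0) =
      ∫ t in Ioi (0 : ℝ), prim f t * Complex.exp (-(s * t)) := by
    refine setIntegral_congr_fun measurableSet_Ioi fun t ht => ?_
    have ht : 0 < t := ht
    have e : (fun u : ℝ => if u ≤ t then f u * Complex.exp (-(s * t)) else 0) =
        (Iic t).indicator fun u => f u * Complex.exp (-(s * t)) := by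
      ext u
      simp only [indicator, mem_Iic]
    rw [e, setIntegral_indicator measurableSet_Iic, Ioi_inter_Iic, prim, max_eq_left ht.le,
      intervalIntegral.integral_of_le ht.le, integral_mul_const]
  have h3 : ∫ u in Ioi (0 : ℝ), (∫ t in Ioi (0 : ℝ),
      if u ≤ t then f u * Complex.exp (-(s * t)) else 0) =
      ∫ u in Ioi (0 : ℝ), f u * Complex.exp (-(s * u)) / s := by
    refine setIntegral_congr_fun measurableSet_Ioi fun u hu => ?_
    have hu : 0 < u := hu
    have e : (fun t : ℝ => if u ≤ t then f u * Complex.exp (-(s * t)) else 0) =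
        (Ici u).indicator fun t : ℝ => f u * Complex.exp (-(s * t)) := by
      ext t
      simp only [indicator, mem_Ici]
    rw [e, setIntegral_indicator measurableSet_Ici,
      show Ioi (0 : ℝ) ∩ Ici u = Ici u from inter_eq_right.mpr fun t ht => lt_of_lt_of_le hu ht,
      integral_Ici_eq_integral_Ioi, integral_const_mul, integral_exp hs, mul_div_assoc]
  rw [h2, h3] at h1
  rw [h1, D.lap s hs, integral_div]

/-- the Laplace transform of `G` -/
theorem quo_eq (D : LapDat f g M) {s : ℂ} (hs : 0 < s.re) :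
    quo g s = ∫ t in Ioi (0 : ℝ), (prim f t - g 0) * Complex.exp (-(s * t)) := by
  have hs0 : s ≠ 0 := by
    rintro rfl
    simp at hs
  have hI : ∀ h : ℝ → ℂ, Continuous h → (∃ C, ∀ t, 0 < t → ‖h t‖ ≤ C * |t| + C) →
      IntegrableOn (fun t : ℝ => h t * Complex.exp (-(s * t))) (Ioi 0) := by
    rintro h hc ⟨C, hC⟩
    have hC0 : 0 ≤ C := by
      have := (norm_nonneg _).trans (hC 1 one_pos)
      rw [abs_one] at this
      linarith
    have hσ : 0 < s.re / 2 := by positivity
    have h1 := (integrableOn_exp hσ).const_mul (C * (2 / s.re) + C)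
    refine Integrable.mono' h1 (Continuous.aestronglyMeasurable (by fun_prop)) ?_
    filter_upwards [ae_restrict_mem measurableSet_Ioi] with t ht
    have ht : 0 < t := ht
    rw [norm_mul, Complex.norm_exp]
    simp only [Complex.neg_re, Complex.mul_re, Complex.ofReal_re, Complex.ofReal_im, mul_zero,
        sub_zero]
    have e1 : Real.exp (-(s.re * t)) = Real.exp (-(s.re / 2 * t)) * Real.exp (-(s.re / 2 * t)) := by
      rw [← Real.exp_add]
      congr 1
      ring
    rw [e1, ← mul_assoc]
    refine mul_le_mul_of_nonneg_right ?_ (Real.exp_pos _).le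
    have e2 : Real.exp (-(s.re / 2 * t)) ≤ 1 := Real.exp_le_one_iff.mpr (by
      have : 0 < s.re / 2 * t := by positivity
      linarith)
    have e3 : t * Real.exp (-(s.re / 2 * t)) ≤ 2 / s.re := by
      rw [Real.exp_neg, ← div_eq_mul_inv, div_le_iff₀ (Real.exp_pos _)]
      have := Real.add_one_le_exp (s.re / 2 * t)
      have h2 : t = 2 / s.re * (s.re / 2 * t) := by
        field_simp
      have h3 : 0 ≤ 2 / s.re := by positivity
      calc t = 2 / s.re * (s.re / 2 * t) := h2
        _ ≤ 2 / s.re * Real.exp (s.re / 2 * t) := by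
          refine mul_le_mul_of_nonneg_left ?_ h3
          linarith
    calc ‖h t‖ * Real.exp (-(s.re / 2 * t)) ≤ (C * |t| + C) * Real.exp (-(s.re / 2 * t)) := by
          gcongr
          exact hC t ht
      _ = C * (t * Real.exp (-(s.re / 2 * t))) + C * Real.exp (-(s.re / 2 * t)) := by
          rw [abs_of_pos ht]
          ring
      _ ≤ C * (2 / s.re) + C * 1 := by gcongr
      _ = C * (2 / s.re) + C := by ring
  have hI1 := hI (prim f) D.continuous_prim ⟨M, fun t ht => by
    have := D.norm_prim_le t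
    have := D.nonneg
    linarith⟩
  have hI2 := hI (fun _ => g 0) continuous_const ⟨‖g 0‖, fun t ht => by
    have : 0 ≤ ‖g 0‖ * |t| := by positivity
    linarith⟩
  have e1 : ∫ t in Ioi (0 : ℝ), (prim f t - g 0) * Complex.exp (-(s * t)) =
      (∫ t in Ioi (0 : ℝ), prim f t * Complex.exp (-(s * t))) -
      ∫ t in Ioi (0 : ℝ), g 0 * Complex.exp (-(s * t)) := by
    rw [← integral_sub hI1 hI2]
    congr 1
    ext t
    ring
  rw [e1, D.integral_prim hs, integral_const_mul, integral_exp hs, quo, dslope_of_ne _ hs0,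
    slope_def_field]
  simp only [Complex.ofReal_zero, mul_zero, neg_zero, Complex.exp_zero, sub_zero]
  field_simp

theorem continuousOn_quo (D : LapDat f g M) : ContinuousOn (quo g) {s : ℂ | 0 ≤ s.re} := by
  intro s hs
  rcases eq_or_ne s 0 with rfl | h
  · exact (continuousAt_dslope_same.mpr D.diff).continuousWithinAt
  · exact (continuousWithinAt_dslope_of_ne h).mpr (D.cont s hs)

/-! ### Convolution with the kernel -/

theorem integrable_damped (D : LapDat f g M) {δ : ℝ} (hδ : 0 < δ) :
    IntegrableOn (fun t : ℝ => (prim f t - g 0) * ((Real.exp (-(δ * t)) : ℝ) : ℂ)) (Ioi 0) := by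
  have hσ : 0 < δ / 2 := by positivity
  have hM := D.nonneg
  have h1 := (integrableOn_exp hσ).const_mul (M * (2 / δ) + ‖g 0‖)
  have hc := D.continuous_prim
  refine Integrable.mono' h1 (Continuous.aestronglyMeasurable (by fun_prop)) ?_
  filter_upwards [ae_restrict_mem measurableSet_Ioi] with t ht
  have ht : 0 < t := ht
  rw [norm_mul, Complex.norm_real, Real.norm_of_nonneg (Real.exp_pos _).le]
  have e1 : Real.exp (-(δ * t)) = Real.exp (-(δ / 2 * t)) * Real.exp (-(δ / 2 * t)) := by
    rw [← Real.exp_add]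
    congr 1
    ring
  rw [e1, ← mul_assoc]
  refine mul_le_mul_of_nonneg_right ?_ (Real.exp_pos _).le
  have e2 : Real.exp (-(δ / 2 * t)) ≤ 1 := Real.exp_le_one_iff.mpr (by
    have : 0 < δ / 2 * t := by positivity
    linarith)
  have e3 : t * Real.exp (-(δ / 2 * t)) ≤ 2 / δ := by
    rw [Real.exp_neg, ← div_eq_mul_inv, div_le_iff₀ (Real.exp_pos _)]
    have := Real.add_one_le_exp (δ / 2 * t)
    have h2 : t = 2 / δ * (δ / 2 * t) := by
      field_simp
    have h3 : 0 ≤ 2 / δ := by positivity
    calc t = 2 / δ * (δ / 2 * t) := h2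
      _ ≤ 2 / δ * Real.exp (δ / 2 * t) := by
        refine mul_le_mul_of_nonneg_left ?_ h3
        linarith
  calc ‖prim f t - g 0‖ * Real.exp (-(δ / 2 * t)) ≤
      (M * |t| + ‖g 0‖) * Real.exp (-(δ / 2 * t)) := by
        gcongr
        exact D.norm_prim_sub_le t
    _ = M * (t * Real.exp (-(δ / 2 * t))) + ‖g 0‖ * Real.exp (-(δ / 2 * t)) := by
        rw [abs_of_pos ht]
        ring
    _ ≤ M * (2 / δ) + ‖g 0‖ * 1 := by gcongr
    _ = M * (2 / δ) + ‖g 0‖ := by ring

/-- the basic identity, `δ > 0` -/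
theorem identity (D : LapDat f g M) {φ K : ℝ → ℂ} (hK : IsKer φ K) {δ : ℝ} (hδ : 0 < δ) (T : ℝ) :
    ∫ y : ℝ, φ y * (Complex.exp (((2 * Real.pi * y * T : ℝ) : ℂ) * Complex.I) *
        quo g (δ + ((2 * Real.pi * y : ℝ) : ℂ) * Complex.I)) =
      ∫ t in Ioi (0 : ℝ), (prim f t - g 0) * ((Real.exp (-(δ * t)) : ℝ) : ℂ) * K (t - T) := by
  have hφ : Integrable φ := hK.cont.integrable_of_hasCompactSupport hK.supp
  have hI : Integrable (Function.uncurry fun y t : ℝ => φ y *
      ((prim f t - g 0) * ((Real.exp (-(δ * t)) : ℝ) : ℂ)) *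
      Complex.exp (((-2 * Real.pi * y * (t - T) : ℝ) : ℂ) * Complex.I))
      (volume.prod (volume.restrict (Ioi 0))) := by
    have h1 := hφ.mul_prod (D.integrable_damped hδ)
    have hc := D.continuous_prim
    have hc' := hK.cont
    refine h1.mono (Continuous.aestronglyMeasurable ?_) (Eventually.of_forall fun z => ?_)
    · unfold Function.uncurry
      fun_prop
    · rw [Function.uncurry_def]
      simp only
      rw [norm_mul, Complex.norm_exp_ofReal_mul_I, mul_one]
  have h1 := integral_integral_swap hI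
  have h2 : ∀ y : ℝ, (∫ t in Ioi (0 : ℝ), φ y *
      ((prim f t - g 0) * ((Real.exp (-(δ * t)) : ℝ) : ℂ)) *
      Complex.exp (((-2 * Real.pi * y * (t - T) : ℝ) : ℂ) * Complex.I)) =
      φ y * (Complex.exp (((2 * Real.pi * y * T : ℝ) : ℂ) * Complex.I) *
        quo g (δ + ((2 * Real.pi * y : ℝ) : ℂ) * Complex.I)) := by
    intro y
    rw [D.quo_eq (s := δ + ((2 * Real.pi * y : ℝ) : ℂ) * Complex.I) (by simpa using hδ),
      ← integral_const_mul, ← integral_const_mul]
    congr 1
    ext t
    have e : Complex.exp (-((δ + ((2 * Real.pi * y : ℝ) : ℂ) * Complex.I) * t)) *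
        Complex.exp (((2 * Real.pi * y * T : ℝ) : ℂ) * Complex.I) =
        ((Real.exp (-(δ * t)) : ℝ) : ℂ) *
        Complex.exp (((-2 * Real.pi * y * (t - T) : ℝ) : ℂ) * Complex.I) := by
      rw [Complex.ofReal_exp, ← Complex.exp_add, ← Complex.exp_add]
      congr 1
      push_cast
      ring
    linear_combination (-(φ y) * (prim f t - g 0)) * e
  have h3 : ∀ t : ℝ, (∫ y : ℝ, φ y *
      ((prim f t - g 0) * ((Real.exp (-(δ * t)) : ℝ) : ℂ)) *
      Complex.exp (((-2 * Real.pi * y * (t - T) : ℝ) : ℂ) * Complex.I)) =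
      (prim f t - g 0) * ((Real.exp (-(δ * t)) : ℝ) : ℂ) * K (t - T) := by
    intro t
    rw [hK.eq, ← integral_const_mul]
    congr 1
    ext y
    ring
  simp only [h2, h3] at h1
  exact h1

theorem integrable_conv (D : LapDat f g M) {φ K : ℝ → ℂ} (hK : IsKer φ K) (T : ℝ) :
    Integrable fun t : ℝ => ‖prim f t - g 0‖ * ‖K (t - T)‖ := by
  have h1 := (hK.int1.comp_sub_right T).const_mul M
  have h2 := (hK.int.norm.comp_sub_right T).const_mul (M * |T| + ‖g 0‖)
  have hc := D.continuous_prim
  have hc' := hK.contK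
  refine (h1.add h2).mono' (Continuous.aestronglyMeasurable (by fun_prop))
    (Eventually.of_forall fun t => ?_)
  rw [Real.norm_of_nonneg (by positivity), Pi.add_apply]
  have hM := D.nonneg
  have h3 : ‖prim f t - g 0‖ ≤ M * |t - T| + (M * |T| + ‖g 0‖) := by
    refine (D.norm_prim_sub_le t).trans ?_
    have : |t| ≤ |t - T| + |T| := by
      have := abs_add_le (t - T) T
      rwa [sub_add_cancel] at this
    nlinarith
  calc ‖prim f t - g 0‖ * ‖K (t - T)‖ ≤ (M * |t - T| + (M * |T| + ‖g 0‖)) * ‖K (t - T)‖ := by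
        gcongr
    _ = M * (|t - T| * ‖K (t - T)‖) + (M * |T| + ‖g 0‖) * ‖K (t - T)‖ := by ring

/-- the basic identity, `δ = 0` -/
theorem identity_zero (D : LapDat f g M) {φ K : ℝ → ℂ} (hK : IsKer φ K) (T : ℝ) :
    ∫ y : ℝ, φ y * (Complex.exp (((2 * Real.pi * y * T : ℝ) : ℂ) * Complex.I) *
        quo g (((2 * Real.pi * y : ℝ) : ℂ) * Complex.I)) =
      ∫ t in Ioi (0 : ℝ), (prim f t - g 0) * K (t - T) := by
  have hc := D.continuous_prim
  have hcφ := hK.cont
  have hcK := hK.contK
  -- the right-hand side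
  have hR : Tendsto (fun δ : ℝ => ∫ t in Ioi (0 : ℝ),
      (prim f t - g 0) * ((Real.exp (-(δ * t)) : ℝ) : ℂ) * K (t - T)) (𝓝[>] 0)
      (𝓝 (∫ t in Ioi (0 : ℝ), (prim f t - g 0) * K (t - T))) := by
    refine tendsto_integral_filter_of_dominated_convergence
      (fun t => ‖prim f t - g 0‖ * ‖K (t - T)‖) ?_ ?_ (D.integrable_conv hK T).integrableOn ?_
    · exact Eventually.of_forall fun δ => Continuous.aestronglyMeasurable (by fun_prop)
    · filter_upwards [self_mem_nhdsWithin] with δ hδ
      have hδ : 0 < δ := hδ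
      filter_upwards [ae_restrict_mem measurableSet_Ioi] with t ht
      have ht : 0 < t := ht
      rw [norm_mul, norm_mul, Complex.norm_real, Real.norm_of_nonneg (Real.exp_pos _).le]
      have : Real.exp (-(δ * t)) ≤ 1 := Real.exp_le_one_iff.mpr (by
        have : 0 < δ * t := by positivity
        linarith)
      calc ‖prim f t - g 0‖ * Real.exp (-(δ * t)) * ‖K (t - T)‖ ≤
          ‖prim f t - g 0‖ * 1 * ‖K (t - T)‖ := by gcongr
        _ = _ := by rw [mul_one]
    · refine Eventually.of_forall fun t => ?_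
      have h1 : Continuous fun δ : ℝ =>
          (prim f t - g 0) * ((Real.exp (-(δ * t)) : ℝ) : ℂ) * K (t - T) := by fun_prop
      have h2 := (h1.tendsto 0).mono_left (nhdsWithin_le_nhds (s := Ioi 0))
      simpa only [zero_mul, neg_zero, Real.exp_zero, Complex.ofReal_one, mul_one] using h2
  -- the left-hand side
  obtain ⟨L, hL⟩ := hK.supp.isCompact.isBounded.subset_closedBall (0 : ℝ)
  have hL' : ∀ y, L < |y| → φ y = 0 := by
    intro y hy
    by_contra h
    have h1 := hL (subset_tsupport _ h)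
    rw [Metric.mem_closedBall, dist_zero_right, Real.norm_eq_abs] at h1
    linarith
  let m : ℝ × ℝ → ℂ := fun z => (z.1 : ℂ) + ((2 * Real.pi * z.2 : ℝ) : ℂ) * Complex.I
  have hm : Continuous m := by fun_prop
  have hmre : ∀ z, (m z).re = z.1 := fun z => by simp [m]
  have hq : ContinuousOn (fun z : ℝ × ℝ => quo g (m z)) (Ici 0 ×ˢ univ) :=
    D.continuousOn_quo.comp hm.continuousOn fun z hz => by
      change 0 ≤ (m z).re
      rw [hmre]
      exact hz.1
  have hcomp : IsCompact (Icc (0 : ℝ) 1 ×ˢ Icc (-L) L) := isCompact_Icc.prod isCompact_Icc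
  obtain ⟨B, hB⟩ := hcomp.exists_bound_of_continuousOn
    (hq.mono (prod_mono Icc_subset_Ici_self (subset_univ _)))
  have hLeft : Tendsto (fun δ : ℝ => ∫ y : ℝ, φ y *
      (Complex.exp (((2 * Real.pi * y * T : ℝ) : ℂ) * Complex.I) *
        quo g (δ + ((2 * Real.pi * y : ℝ) : ℂ) * Complex.I))) (𝓝[>] 0)
      (𝓝 (∫ y : ℝ, φ y * (Complex.exp (((2 * Real.pi * y * T : ℝ) : ℂ) * Complex.I) *
        quo g (((2 * Real.pi * y : ℝ) : ℂ) * Complex.I)))) := by
    refine tendsto_integral_filter_of_dominated_convergence (fun y => ‖φ y‖ * B) ?_ ?_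
      ((hcφ.integrable_of_hasCompactSupport hK.supp).norm.mul_const B) ?_
    · filter_upwards [self_mem_nhdsWithin] with δ hδ
      have hδ : 0 < δ := hδ
      have h1 : Continuous fun y : ℝ => quo g (δ + ((2 * Real.pi * y : ℝ) : ℂ) * Complex.I) := by
        have h2 : Continuous fun y : ℝ => ((δ, y) : ℝ × ℝ) := by fun_prop
        exact (hq.comp_continuous h2 fun y => ⟨hδ.le, mem_univ _⟩)
      exact Continuous.aestronglyMeasurable (by fun_prop)
    · filter_upwards [Ioc_mem_nhdsGT (zero_lt_one (α := ℝ))] with δ hδ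
      refine Eventually.of_forall fun y => ?_
      rw [norm_mul, norm_mul, Complex.norm_exp_ofReal_mul_I, one_mul]
      rcases le_or_gt |y| L with h | h
      · refine mul_le_mul_of_nonneg_left ?_ (norm_nonneg _)
        exact hB (δ, y) ⟨⟨hδ.1.le, hδ.2⟩, abs_le.mp h⟩
      · rw [hL' y h]
        simp
    · refine Eventually.of_forall fun y => ?_
      refine Tendsto.const_mul _ (Tendsto.const_mul _ ?_)
      have h1 : Tendsto (fun δ : ℝ => ((δ, y) : ℝ × ℝ)) (𝓝[>] 0) (𝓝[Ici 0 ×ˢ univ] (0, y)) := by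
        refine tendsto_nhdsWithin_iff.mpr ⟨?_, ?_⟩
        · have h2 : Continuous fun δ : ℝ => ((δ, y) : ℝ × ℝ) := by fun_prop
          exact (h2.tendsto 0).mono_left nhdsWithin_le_nhds
        · filter_upwards [self_mem_nhdsWithin] with δ hδ
          have hδ : 0 < δ := hδ
          exact ⟨hδ.le, mem_univ _⟩
      have h2 := (hq (0, y) ⟨mem_Ici.mpr le_rfl, mem_univ _⟩).tendsto.comp h1
      simpa only [Function.comp_def, m, Complex.ofReal_zero, zero_add] using h2
  refine tendsto_nhds_unique hLeft (hR.congr' ?_)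
  filter_upwards [self_mem_nhdsWithin] with δ hδ
  exact (D.identity hK hδ T).symm

/-- the convolution tends to zero -/
theorem tendsto_conv (D : LapDat f g M) {φ K : ℝ → ℂ} (hK : IsKer φ K) :
    Tendsto (fun T : ℝ => ∫ t in Ioi (0 : ℝ), (prim f t - g 0) * K (t - T)) atTop (𝓝 0) := by
  have h1 := Real.zero_at_infty_fourier fun y : ℝ =>
    φ y * quo g (((2 * Real.pi * y : ℝ) : ℂ) * Complex.I)
  have h2 : Tendsto (fun T : ℝ => -T) atTop (cocompact ℝ) :=
    tendsto_neg_atTop_atBot.mono_right atBot_le_cocompact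
  refine (h1.comp h2).congr fun T => ?_
  rw [Function.comp_apply, ← D.identity_zero hK T, Real.fourier_real_eq_integral_exp_smul]
  congr 1
  ext y
  rw [smul_eq_mul, show -2 * Real.pi * y * -T = 2 * Real.pi * y * T by ring]
  ring

theorem norm_sub_conv_le (D : LapDat f g M) {φ K : ℝ → ℂ} (hK : IsKer φ K) {T : ℝ} (hT : 0 < T) :
    ‖(prim f T - g 0) - ∫ t in Ioi (0 : ℝ), (prim f t - g 0) * K (t - T)‖ ≤
      (M + ‖g 0‖ / T) * ∫ w : ℝ, |w| * ‖K w‖ := by
  have hM := D.nonneg
  have hc := D.continuous_prim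
  have hcK := hK.contK
  have e1 : (prim f T - g 0) = ∫ t : ℝ, (prim f T - g 0) * K (t - T) := by
    rw [integral_const_mul, integral_sub_right_eq_self K T, hK.one, mul_one]
  have e2 : ∫ t in Ioi (0 : ℝ), (prim f t - g 0) * K (t - T) =
      ∫ t : ℝ, (Ioi (0 : ℝ)).indicator (fun t => (prim f t - g 0) * K (t - T)) t :=
    (integral_indicator measurableSet_Ioi).symm
  have hI1 : Integrable fun t : ℝ => (prim f T - g 0) * K (t - T) :=
    (hK.int.comp_sub_right T).const_mul _
  have hI2 : Integrable ((Ioi (0 : ℝ)).indicator fun t => (prim f t - g 0) * K (t - T)) := by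
    refine Integrable.indicator ?_ measurableSet_Ioi
    refine (D.integrable_conv hK T).mono' (Continuous.aestronglyMeasurable (by fun_prop))
      (Eventually.of_forall fun t => (norm_mul _ _).le)
  have hI3 : Integrable fun t : ℝ => (M + ‖g 0‖ / T) * (|t - T| * ‖K (t - T)‖) :=
    (hK.int1.comp_sub_right T).const_mul _
  have e3 : (M + ‖g 0‖ / T) * ∫ w : ℝ, |w| * ‖K w‖ =
      ∫ t : ℝ, (M + ‖g 0‖ / T) * (|t - T| * ‖K (t - T)‖) := by
    rw [integral_const_mul, integral_sub_right_eq_self (fun w => |w| * ‖K w‖) T]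
  rw [e1, e2, ← integral_sub hI1 hI2, e3]
  refine norm_integral_le_of_norm_le hI3 (Eventually.of_forall fun t => ?_)
  have hg : 0 ≤ ‖g 0‖ / T := by positivity
  rcases le_or_gt t 0 with ht | ht
  · rw [indicator_of_notMem (by simpa using ht), sub_zero, norm_mul, ← mul_assoc]
    refine mul_le_mul_of_nonneg_right ?_ (norm_nonneg _)
    refine (D.norm_prim_sub_le T).trans ?_
    have h1 : |T| = T := abs_of_pos hT
    have h2 : |t - T| = T - t := by
      rw [abs_of_nonpos (by linarith)]
      ring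
    rw [h1, h2]
    have h3 : ‖g 0‖ = ‖g 0‖ / T * T := by field_simp
    have h4 : 0 ≤ M * (-t) := mul_nonneg hM (by linarith)
    have h5 : 0 ≤ ‖g 0‖ / T * (-t) := mul_nonneg hg (by linarith)
    nlinarith
  · rw [indicator_of_mem (by simpa using ht), ← sub_mul, norm_mul, ← mul_assoc]
    refine mul_le_mul_of_nonneg_right ?_ (norm_nonneg _)
    rw [sub_sub_sub_cancel_right]
    refine (D.lip T t).trans ?_
    rw [abs_sub_comm]
    have : 0 ≤ ‖g 0‖ / T * |t - T| := by positivity
    nlinarith

/-- **Newman's analytic theorem.** -/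
theorem tendsto_prim (D : LapDat f g M) : Tendsto (prim f) atTop (𝓝 (g 0)) := by
  rw [tendsto_iff_norm_sub_tendsto_zero, Metric.tendsto_atTop]
  intro ε hε
  have hM := D.nonneg
  have hgn := norm_nonneg (g 0)
  obtain ⟨φ, K, hK, hκ⟩ := exists_isKer_le (ε := ε / (2 * (M + ‖g 0‖ + 1))) (by positivity)
  have h1 := D.tendsto_conv hK
  rw [tendsto_zero_iff_norm_tendsto_zero, Metric.tendsto_atTop] at h1
  obtain ⟨N, hN⟩ := h1 (ε / 2) (by positivity)
  refine ⟨max N 1, fun T hT => ?_⟩
  have hT1 : 1 ≤ T := (le_max_right _ _).trans hT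
  have h2 := hN T ((le_max_left _ _).trans hT)
  rw [Real.dist_eq, sub_zero, abs_of_nonneg (norm_nonneg _)] at h2 ⊢
  have h3 := D.norm_sub_conv_le hK (lt_of_lt_of_le one_pos hT1)
  have h4 : ‖g 0‖ / T ≤ ‖g 0‖ := div_le_self hgn hT1
  have h5 : (M + ‖g 0‖ / T) * ∫ w : ℝ, |w| * ‖K w‖ ≤ ε / 2 := by
    calc (M + ‖g 0‖ / T) * ∫ w : ℝ, |w| * ‖K w‖ ≤
        (M + ‖g 0‖ + 1) * (ε / (2 * (M + ‖g 0‖ + 1))) := by
          refine mul_le_mul (by linarith) hκ (integral_nonneg fun w => by positivity) (by positivity)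
      _ = ε / 2 := by
          field_simp
  have h6 := norm_sub_norm_le (prim f T - g 0)
    (∫ t in Ioi (0 : ℝ), (prim f t - g 0) * K (t - T))
  linarith

end LapDat

/-- **Newman's analytic theorem**: `f` bounded and measurable on `(0, ∞)`, its Laplace transform
`g` continuous on the closed half plane `0 ≤ Re s` and differentiable at `0`; then
`∫_0^T f → g(0)`. -/
theorem newman (hf : Measurable f) (hM : ∀ t, 0 < t → ‖f t‖ ≤ M)
    (hg : ContinuousOn g {s : ℂ | 0 ≤ s.re}) (hd : DifferentiableAt ℂ g 0)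
    (hlap : ∀ s : ℂ, 0 < s.re → g s = ∫ t in Ioi (0 : ℝ), f t * Complex.exp (-(s * t))) :
    Tendsto (fun T : ℝ => ∫ t in (0 : ℝ)..T, f t) atTop (𝓝 (g 0)) := by
  refine (LapDat.tendsto_prim ⟨hf, hM, hg, hd, hlap⟩).congr' ?_
  filter_upwards [eventually_ge_atTop 0] with T hT
  rw [prim, max_eq_left hT]

end Fermat.Agent.Cor.Mert
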