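import Mathlib

/-!
# Partial summation with the weight `1 / log`

If `∑_{n ≤ x} b_n log n = A log x + C + o(1)`, then there is a constant `B` such that
`∑_{n ≤ x} b_n = A log log x + B + o(1 / log x)`.
-/

set_option autoImplicit false

open MeasureTheory Set Filter Topology

namespace Fermat.Agent.Cor.Mert

theorem hasDerivAt_inv_log {t : ℝ} (ht : 1 < t) :
    HasDerivAt (fun t : ℝ => (Real.log t)⁻¹) (-(t⁻¹) / Real.log t ^ 2) t :=
  (Real.hasDerivAt_log (by linarith)).fun_inv (Real.log_pos ht).ne'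

theorem continuousOn_inv_log {x y : ℝ} (hx : 1 < x) :
    ContinuousOn (fun t : ℝ => -(t⁻¹) / Real.log t ^ 2) (Icc x y) := by
  refine ContinuousOn.div ?_ ?_ ?_
  · exact (continuousOn_id.inv₀ fun t ht => by
      have := ht.1
      simp only [id_eq]
      linarith).neg
  · exact (Real.continuousOn_log.mono fun t ht => by
      have := ht.1
      simp only [mem_compl_iff, mem_singleton_iff]
      linarith).pow 2
  · intro t ht
    exact pow_ne_zero _ (Real.log_pos (lt_of_lt_of_le hx ht.1)).ne'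

variable {b : ℕ → ℝ}

/-- the sum -/
noncomputable def sumL (b : ℕ → ℝ) (x : ℝ) : ℝ := ∑ n ∈ Finset.Icc 1 ⌊x⌋₊, b n * Real.log n

/-- the sum of the coefficients -/
noncomputable def sumU (b : ℕ → ℝ) (x : ℝ) : ℝ := ∑ n ∈ Finset.Icc 1 ⌊x⌋₊, b n

theorem sumL_eq (b : ℕ → ℝ) (x : ℝ) :
    sumL b x = ∑ n ∈ Finset.Icc 0 ⌊x⌋₊, b n * Real.log n := by
  rw [sumL]
  refine Finset.sum_subset (Finset.Icc_subset_Icc (Nat.zero_le _) le_rfl) fun n hn hn' => ?_
  have : n = 0 := by
    rw [Finset.mem_Icc] at hn hn'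
    omega
  rw [this]
  simp

/-- Abel summation -/
theorem sumU_sub {x y A C : ℝ} (hx : 1 < x) (hxy : x ≤ y) :
    sumU b y - sumU b x = A * (Real.log (Real.log y) - Real.log (Real.log x)) +
      (sumL b y - A * Real.log y - C) * (Real.log y)⁻¹ -
      (sumL b x - A * Real.log x - C) * (Real.log x)⁻¹ -
      ∫ t in x..y, (-(t⁻¹) / Real.log t ^ 2) * (sumL b t - A * Real.log t - C) := by
  have hy : 1 < y := lt_of_lt_of_le hx hxy
  have hlx := Real.log_pos hx
  have hly := Real.log_pos hy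
  have hderiv : ∀ t ∈ Icc x y, deriv (fun t : ℝ => (Real.log t)⁻¹) t = -(t⁻¹) / Real.log t ^ 2 :=
    fun t ht => (hasDerivAt_inv_log (lt_of_lt_of_le hx ht.1)).deriv
  have hcont := continuousOn_inv_log (y := y) hx
  have hintd : IntegrableOn (deriv fun t : ℝ => (Real.log t)⁻¹) (Icc x y) :=
    (hcont.integrableOn_Icc).congr_fun (fun t ht => (hderiv t ht).symm) measurableSet_Icc
  have h1 := sum_mul_eq_sub_sub_integral_mul (fun n => b n * Real.log n)
    (f := fun t : ℝ => (Real.log t)⁻¹) (a := x) (b := y) (by linarith) hxy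
    (fun t ht => (hasDerivAt_inv_log (lt_of_lt_of_le hx ht.1)).differentiableAt) hintd
  have h2 : ∑ k ∈ Finset.Ioc ⌊x⌋₊ ⌊y⌋₊, (Real.log k)⁻¹ * (b k * Real.log k) =
      sumU b y - sumU b x := by
    have hfl : ⌊x⌋₊ ≤ ⌊y⌋₊ := Nat.floor_mono hxy
    have hfx : 1 ≤ ⌊x⌋₊ := Nat.one_le_floor_iff _ |>.mpr hx.le
    have h3 : sumU b y = sumU b x + ∑ k ∈ Finset.Ioc ⌊x⌋₊ ⌊y⌋₊, b k := by
      rw [sumU, sumU, ← Finset.sum_union]
      · congr 1
        ext n
        simp only [Finset.mem_Icc, Finset.mem_union, Finset.mem_Ioc]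
        omega
      · rw [Finset.disjoint_left]
        intro n hn hn'
        simp only [Finset.mem_Icc, Finset.mem_Ioc] at hn hn'
        omega
    rw [h3, add_sub_cancel_left]
    refine Finset.sum_congr rfl fun k hk => ?_
    have hk1 : 1 < k := by
      rw [Finset.mem_Ioc] at hk
      omega
    have : Real.log k ≠ 0 := (Real.log_pos (by exact_mod_cast hk1)).ne'
    field_simp
  rw [h2, ← sumL_eq, ← sumL_eq] at h1
  have h3 : ∫ t in Ioc x y, deriv (fun t : ℝ => (Real.log t)⁻¹) t *
      ∑ k ∈ Finset.Icc 0 ⌊t⌋₊, b k * Real.log k =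
      ∫ t in x..y, (-(t⁻¹) / Real.log t ^ 2) * sumL b t := by
    rw [intervalIntegral.integral_of_le hxy]
    refine setIntegral_congr_fun measurableSet_Ioc fun t ht => ?_
    rw [hderiv t ⟨ht.1.le, ht.2⟩, sumL_eq]
  rw [h3] at h1
  -- the smooth part
  have hI1 : IntervalIntegrable (fun t => (-(t⁻¹) / Real.log t ^ 2) * sumL b t) volume x y := by
    rw [intervalIntegrable_iff_integrableOn_Icc_of_le hxy]
    have := integrableOn_mul_sum_Icc (c := fun n => b n * Real.log n) (m := 0)
      (show 0 ≤ x by linarith) hcont.integrableOn_Icc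
    simpa only [sumL_eq] using this
  have hcont2 : ContinuousOn (fun t : ℝ => (-(t⁻¹) / Real.log t ^ 2) * (A * Real.log t + C))
      (Icc x y) := by
    refine hcont.mul ((continuousOn_const.mul (Real.continuousOn_log.mono fun t ht => ?_)).add
      continuousOn_const)
    have := ht.1
    simp only [mem_compl_iff, mem_singleton_iff]
    linarith
  have hI2 : IntervalIntegrable (fun t : ℝ => (-(t⁻¹) / Real.log t ^ 2) * (A * Real.log t + C))
      volume x y := hcont2.intervalIntegrable_of_Icc hxy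
  have h4 : ∫ t in x..y, (-(t⁻¹) / Real.log t ^ 2) * (A * Real.log t + C) =
      (-A * Real.log (Real.log y) + C * (Real.log y)⁻¹) -
      (-A * Real.log (Real.log x) + C * (Real.log x)⁻¹) := by
    refine intervalIntegral.integral_eq_sub_of_hasDerivAt (f := fun t =>
      -A * Real.log (Real.log t) + C * (Real.log t)⁻¹) (fun t ht => ?_) hI2
    rw [uIcc_of_le hxy] at ht
    have ht1 : 1 < t := lt_of_lt_of_le hx ht.1
    have hlt := Real.log_pos ht1
    have h5 : HasDerivAt (fun t : ℝ => Real.log (Real.log t)) (t⁻¹ / Real.log t) t :=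
      (Real.hasDerivAt_log (by linarith)).log hlt.ne'
    have h6 := (h5.const_mul (-A)).fun_add ((hasDerivAt_inv_log ht1).const_mul C)
    have hl0 := hlt.ne'
    have ht0 : t ≠ 0 := by linarith
    refine h6.congr_deriv ?_
    field_simp
    ring
  have h5 : ∫ t in x..y, (-(t⁻¹) / Real.log t ^ 2) * (sumL b t - A * Real.log t - C) =
      (∫ t in x..y, (-(t⁻¹) / Real.log t ^ 2) * sumL b t) -
      ∫ t in x..y, (-(t⁻¹) / Real.log t ^ 2) * (A * Real.log t + C) := by
    rw [← intervalIntegral.integral_sub hI1 hI2]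
    congr 1
    ext t
    ring
  rw [h5, h4, h1]
  field_simp
  ring

/-- the error term -/
theorem abs_integral_le {x y A C ε : ℝ} (hx : 1 < x) (hxy : x ≤ y)
    (h : ∀ t, x ≤ t → |sumL b t - A * Real.log t - C| ≤ ε) :
    |∫ t in x..y, (-(t⁻¹) / Real.log t ^ 2) * (sumL b t - A * Real.log t - C)| ≤
      ε * (Real.log x)⁻¹ := by
  have hε : 0 ≤ ε := (abs_nonneg _).trans (h x le_rfl)
  have hly := Real.log_pos (lt_of_lt_of_le hx hxy)
  have hcont := continuousOn_inv_log (y := y) hx
  have hI : IntervalIntegrable (fun t : ℝ => -ε * (-(t⁻¹) / Real.log t ^ 2)) volume x y :=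
    (hcont.intervalIntegrable_of_Icc hxy).const_mul _
  have h1 : ∫ t in x..y, -ε * (-(t⁻¹) / Real.log t ^ 2) =
      -ε * ((Real.log y)⁻¹ - (Real.log x)⁻¹) := by
    rw [intervalIntegral.integral_const_mul]
    congr 1
    refine intervalIntegral.integral_eq_sub_of_hasDerivAt (f := fun t => (Real.log t)⁻¹)
      (fun t ht => ?_) (hcont.intervalIntegrable_of_Icc hxy)
    rw [uIcc_of_le hxy] at ht
    exact hasDerivAt_inv_log (lt_of_lt_of_le hx ht.1)
  have h2 := intervalIntegral.norm_integral_le_of_norm_le (μ := volume)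
    (f := fun t => (-(t⁻¹) / Real.log t ^ 2) * (sumL b t - A * Real.log t - C))
    (g := fun t : ℝ => -ε * (-(t⁻¹) / Real.log t ^ 2)) hxy
    (Eventually.of_forall fun t ht => ?_) hI
  · rw [h1, Real.norm_eq_abs] at h2
    refine h2.trans ?_
    have : 0 ≤ ε * (Real.log y)⁻¹ := by positivity
    linarith
  · have ht0 : 0 < t := by linarith [ht.1]
    rw [norm_mul, Real.norm_eq_abs, Real.norm_eq_abs]
    have h3 : |(-(t⁻¹) / Real.log t ^ 2)| = -(-(t⁻¹) / Real.log t ^ 2) := by
      rw [abs_of_nonpos]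
      rw [neg_div]
      have : 0 ≤ t⁻¹ / Real.log t ^ 2 := by positivity
      linarith
    rw [h3]
    have h4 : 0 ≤ -(-(t⁻¹) / Real.log t ^ 2) := by
      rw [neg_div, neg_neg]
      positivity
    have h5 := mul_le_mul_of_nonneg_left (h t ht.1.le) h4
    linarith

/-- **Partial summation**: `∑_{n ≤ x} b_n log n = A log x + C + o(1)` implies
`∑_{n ≤ x} b_n = A log log x + B + o(1 / log x)` for a constant `B`. -/
theorem exists_tendsto_loglog {A C : ℝ}
    (h : Tendsto (fun x : ℝ => sumL b x - A * Real.log x) atTop (𝓝 C)) :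
    ∃ B : ℝ, Tendsto (fun x : ℝ => (sumU b x - A * Real.log (Real.log x) - B) * Real.log x)
      atTop (𝓝 0) := by
  set V : ℝ → ℝ := fun x => sumU b x - A * Real.log (Real.log x) -
    (sumL b x - A * Real.log x - C) * (Real.log x)⁻¹ with hV
  have hE : Tendsto (fun x : ℝ => sumL b x - A * Real.log x - C) atTop (𝓝 0) := by
    simpa using h.sub_const C
  have key : ∀ ε : ℝ, 0 < ε → ∃ X : ℝ, Real.exp 1 ≤ X ∧ ∀ x y, X ≤ x → x ≤ y →
      |V y - V x| ≤ ε * (Real.log x)⁻¹ := by
    intro ε hε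
    rw [Metric.tendsto_atTop] at hE
    obtain ⟨N, hN⟩ := hE ε hε
    refine ⟨max N (Real.exp 1), le_max_right _ _, fun x y hx hxy => ?_⟩
    have hx1 : 1 < x := by
      have h1 := (le_max_right N (Real.exp 1)).trans hx
      have h2 := Real.add_one_lt_exp (one_ne_zero (α := ℝ))
      linarith
    have h1 := sumU_sub (b := b) (A := A) (C := C) hx1 hxy
    have h2 := abs_integral_le (b := b) (A := A) (C := C) (ε := ε) hx1 hxy fun t ht => by
      have := hN t (((le_max_left _ _).trans hx).trans ht)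
      rw [Real.dist_eq, sub_zero] at this
      exact this.le
    have h3 : V y - V x =
        -∫ t in x..y, (-(t⁻¹) / Real.log t ^ 2) * (sumL b t - A * Real.log t - C) := by
      simp only [hV]
      linarith
    rwa [h3, abs_neg]
  have hlog1 : ∀ x : ℝ, Real.exp 1 ≤ x → 1 ≤ Real.log x := fun x hx => by
    rwa [Real.le_log_iff_exp_le (lt_of_lt_of_le (Real.exp_pos 1) hx)]
  have hcau : CauchySeq V := by
    rw [Metric.cauchySeq_iff']
    intro ε hε
    obtain ⟨X, hX, hXV⟩ := key (ε / 2) (by positivity)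
    refine ⟨X, fun y hy => ?_⟩
    rw [Real.dist_eq]
    refine (hXV X y le_rfl hy).trans_lt ?_
    have h1 := hlog1 X hX
    have h2 : (Real.log X)⁻¹ ≤ 1 := inv_le_one_of_one_le₀ h1
    nlinarith
  obtain ⟨B, hB⟩ := cauchySeq_tendsto_of_complete hcau
  refine ⟨B, ?_⟩
  have hVB : Tendsto (fun x => (V x - B) * Real.log x) atTop (𝓝 0) := by
    rw [Metric.tendsto_atTop]
    intro ε hε
    obtain ⟨X, hX, hXV⟩ := key (ε / 2) (by positivity)
    refine ⟨X, fun x hx => ?_⟩
    have h1 := hlog1 x (hX.trans hx)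
    have h2 : |B - V x| ≤ ε / 2 * (Real.log x)⁻¹ := by
      refine le_of_tendsto ((hB.sub_const (V x)).abs) ?_
      filter_upwards [eventually_ge_atTop x] with y hy
      exact hXV x y hx hy
    rw [Real.dist_eq, sub_zero, abs_mul, abs_of_pos (by linarith : 0 < Real.log x),
      abs_sub_comm]
    calc |B - V x| * Real.log x ≤ (ε / 2 * (Real.log x)⁻¹) * Real.log x := by gcongr
      _ = ε / 2 := by
        rw [mul_assoc, inv_mul_cancel₀ (by linarith), mul_one]
      _ < ε := by linarith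
  have h1 := hVB.add hE
  rw [add_zero] at h1
  refine h1.congr' ?_
  filter_upwards [eventually_gt_atTop 1] with x hx
  have hlx := Real.log_pos hx
  simp only [hV]
  field_simp
  ring

end Fermat.Agent.Cor.Mert
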