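import Fermat.Agent.Corollaries.Mertens.Newman
import Fermat.Agent.Corollaries.ZetaK.WienerIkehara

/-!
# The logarithmic mean of a Dirichlet series with a simple pole

`a_n ≥ 0`, `∑ a_n n ^ (-s) = A / (s - 1) + G(s)` with `G` continuous on `1 ≤ Re s` (the hypotheses
of the Wiener-Ikehara theorem) and differentiable at `1`. Then
`∑_{n ≤ x} a_n / n = A log x + G(1) + o(1)`.
-/

set_option autoImplicit false

open MeasureTheory Set Filter Topology

namespace Fermat.Agent.Cor.Mert

variable {a : ℕ → ℝ}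

/-- `∫_0^T S(t) dt = ∑_{n ≤ e ^ T} a_n (1 / n - e ^ (-T))` -/
theorem integral_wiS_interval (a : ℕ → ℝ) {T : ℝ} (hT : 0 ≤ T) :
    ∫ t in (0 : ℝ)..T, wiS a t =
      (∑ n ∈ Finset.Icc 1 ⌊Real.exp T⌋₊, a n / n) - wiS a T := by
  set N := ⌊Real.exp T⌋₊ with hN
  have h1 : ∀ t ∈ Ioc (0 : ℝ) T, wiS a t = ∑ n ∈ Finset.Icc 1 N,
      a n * (Ici (Real.log n)).indicator (fun t : ℝ => Real.exp (-t)) t := by
    intro t ht
    unfold wiS
    have hsub : Finset.Icc 1 ⌊Real.exp t⌋₊ = (Finset.Icc 1 N).filter fun n => n ≤ ⌊Real.exp t⌋₊ := by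
      have hle : ⌊Real.exp t⌋₊ ≤ N := Nat.floor_mono (Real.exp_le_exp.mpr ht.2)
      ext n
      simp only [Finset.mem_Icc, Finset.mem_filter]
      omega
    rw [hsub, Finset.sum_filter, Finset.sum_mul]
    refine Finset.sum_congr rfl fun n hn => ?_
    have hn1 : 1 ≤ n := (Finset.mem_Icc.mp hn).1
    have hn0 : (0 : ℝ) < n := by exact_mod_cast hn1
    have hiff : n ≤ ⌊Real.exp t⌋₊ ↔ t ∈ Ici (Real.log n) := by
      rw [Nat.le_floor_iff (Real.exp_pos t).le, mem_Ici, Real.log_le_iff_le_exp hn0]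
    by_cases h : n ≤ ⌊Real.exp t⌋₊
    · rw [if_pos h, indicator_of_mem (hiff.mp h)]
    · rw [if_neg h, indicator_of_notMem (fun h' => h (hiff.mpr h')), zero_mul, mul_zero]
  have h2 : ∀ n ∈ Finset.Icc 1 N, ∫ t in Ioc (0 : ℝ) T,
      a n * (Ici (Real.log n)).indicator (fun t : ℝ => Real.exp (-t)) t =
      a n * (1 / n - Real.exp (-T)) := by
    intro n hn
    obtain ⟨hn1, hnN⟩ := Finset.mem_Icc.mp hn
    have hn0 : (0 : ℝ) < n := by exact_mod_cast hn1
    have hlog0 : 0 ≤ Real.log n := Real.log_natCast_nonneg n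
    have hlogT : Real.log n ≤ T := by
      rw [Real.log_le_iff_le_exp hn0]
      exact (Nat.le_floor_iff (Real.exp_pos T).le).mp hnN
    rw [integral_const_mul, setIntegral_indicator measurableSet_Ici]
    congr 1
    have h3 : ∫ t in Ioc (0 : ℝ) T ∩ Ici (Real.log n), Real.exp (-t) =
        ∫ t in Ioc (Real.log n) T, Real.exp (-t) := by
      rcases hlog0.eq_or_lt with h0 | h0
      · rw [← h0]
        congr 2
        ext t
        simp only [mem_inter_iff, mem_Ioc, mem_Ici]
        exact ⟨fun h => h.1, fun h => ⟨h, h.1.le⟩⟩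
      · rw [← integral_Icc_eq_integral_Ioc]
        congr 2
        ext t
        simp only [mem_inter_iff, mem_Ioc, mem_Ici, mem_Icc]
        exact ⟨fun h => ⟨h.2, h.1.2⟩, fun h => ⟨⟨lt_of_lt_of_le h0 h.1, h.2⟩, h.1⟩⟩
    rw [h3, ← intervalIntegral.integral_of_le hlogT, intervalIntegral.integral_comp_neg
      (fun t => Real.exp t), integral_exp, Real.exp_neg (Real.log n), Real.exp_log hn0, one_div]
  have hI : ∀ n ∈ Finset.Icc 1 N, Integrable (fun t : ℝ =>
      a n * (Ici (Real.log n)).indicator (fun t : ℝ => Real.exp (-t)) t)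
      (volume.restrict (Ioc 0 T)) := by
    intro n _
    refine Integrable.const_mul ?_ _
    refine Integrable.indicator ?_ measurableSet_Ici
    have : Continuous fun t : ℝ => Real.exp (-t) := by fun_prop
    exact (this.integrableOn_Icc (a := 0) (b := T)).mono_set Ioc_subset_Icc_self
  rw [intervalIntegral.integral_of_le hT, setIntegral_congr_fun measurableSet_Ioc h1,
    integral_finsetSum _ hI, Finset.sum_congr rfl h2, wiS, ← hN, Finset.sum_mul,
    ← Finset.sum_sub_distrib]
  refine Finset.sum_congr rfl fun n _ => ?_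
  ring

theorem exists_bound_wiS {A : ℝ} (ha : ∀ n, 0 ≤ a n)
    (hs : ∀ s : ℂ, 1 < s.re → LSeriesSummable (fun n => (a n : ℂ)) s)
    (h : Tendsto (wiS a) atTop (𝓝 A)) : ∃ M : ℝ, ∀ t : ℝ, 0 < t → |wiS a t - A| ≤ M := by
  obtain ⟨C, hC0, hC⟩ := wiS_le ha hs (r := 2) (by norm_num)
  obtain ⟨T, hT⟩ := (Metric.tendsto_atTop.mp h) 1 one_pos
  refine ⟨max 1 (C * Real.exp ((2 - 1) * T) + |A|), fun t ht => ?_⟩
  rcases le_or_gt T t with h1 | h1
  · have := hT t h1
    rw [Real.dist_eq] at this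
    exact this.le.trans (le_max_left _ _)
  · refine le_trans ?_ (le_max_right _ _)
    refine (abs_sub _ _).trans ?_
    rw [abs_of_nonneg (wiS_nonneg ha t)]
    gcongr
    refine (hC t).trans ?_
    gcongr

/-- **The logarithmic mean.** -/
theorem tendsto_sum_div_sub {A : ℝ} {G : ℂ → ℂ} (ha : ∀ n, 0 ≤ a n)
    (hs : ∀ s : ℂ, 1 < s.re → LSeriesSummable (fun n => (a n : ℂ)) s)
    (hG : ContinuousOn G {s : ℂ | 1 ≤ s.re}) (hd : DifferentiableAt ℂ G 1)
    (hF : ∀ s : ℂ, 1 < s.re → G s = LSeries (fun n => (a n : ℂ)) s - A / (s - 1)) :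
    Tendsto (fun x : ℝ => (∑ n ∈ Finset.Icc 1 ⌊x⌋₊, a n / n) - A * Real.log x) atTop
      (𝓝 (G 1).re) := by
  have D := tauberDat_wiS ha hs hG hF
  have hS := D.tendsto
  obtain ⟨M, hM⟩ := exists_bound_wiS ha hs hS
  have h1 : Tendsto (fun T : ℝ => ∫ t in (0 : ℝ)..T, ((wiS a t - A : ℝ) : ℂ)) atTop
      (𝓝 ((G (0 + 1) - A) / (0 + 1))) := by
    refine newman (f := fun t => ((wiS a t - A : ℝ) : ℂ)) (M := M) ?_ ?_ D.cont ?_ D.lap
    · exact Complex.measurable_ofReal.comp ((measurable_wiS a).sub_const A)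
    · intro t ht
      rw [Complex.norm_real]
      exact hM t ht
    · refine DifferentiableAt.div ?_ (by fun_prop) (by norm_num)
      refine DifferentiableAt.sub_const ?_ _
      have h2 : DifferentiableAt ℂ G ((fun s : ℂ => s + 1) 0) := by simpa using hd
      exact h2.comp 0 (by fun_prop)
  rw [zero_add, div_one] at h1
  have h2 : Tendsto (fun T : ℝ => (∫ t in (0 : ℝ)..T, (wiS a t - A))) atTop
      (𝓝 ((G 1).re - A)) := by
    have h3 := (Complex.continuous_re.tendsto _).comp h1
    simp only [Complex.sub_re, Complex.ofReal_re] at h3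
    refine h3.congr fun T => ?_
    rw [Function.comp_apply, intervalIntegral.integral_ofReal, Complex.ofReal_re]
  have h3 : Tendsto (fun T : ℝ => (∑ n ∈ Finset.Icc 1 ⌊Real.exp T⌋₊, a n / n) - A * T) atTop
      (𝓝 (G 1).re) := by
    have h4 := h2.add hS
    rw [sub_add_cancel] at h4
    refine h4.congr' ?_
    filter_upwards [eventually_ge_atTop 0] with T hT
    have hI : IntervalIntegrable (wiS a) volume 0 T := by
      rw [intervalIntegrable_iff_integrableOn_Ioc_of_le hT]
      refine Measure.integrableOn_of_bounded (M := M + |A|) (by simp)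
        (measurable_wiS a).aestronglyMeasurable ?_
      filter_upwards [ae_restrict_mem measurableSet_Ioc] with t ht
      have h5 := hM t ht.1
      have h6 := abs_add_le (wiS a t - A) A
      rw [sub_add_cancel] at h6
      rw [Real.norm_eq_abs]
      linarith
    rw [intervalIntegral.integral_sub hI (by simp), integral_wiS_interval a hT,
      intervalIntegral.integral_const, smul_eq_mul]
    ring
  refine (h3.comp Real.tendsto_log_atTop).congr' ?_
  filter_upwards [eventually_gt_atTop 0] with x hx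
  simp only [Function.comp_apply]
  rw [Real.exp_log hx]

end Fermat.Agent.Cor.Mert
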